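import Mathlib

/-!
# S17 / HN ("heights via the Nullstellensatz"): basic definitions (append-only; owner helper22)

* `AbsFam k`   : a family of absolute values on `k` (nonarchimedean outside a finite set; every element
                 is `≤ 1` at almost all places);
* `AdmConst 𝒜` : admissible constants `C_v ≥ 1`, `= 1` for almost all `v`;
* `vnorm`, `minors`, `msize` : sup norm, vector of maximal minors, its sup norm;
* `IsPolyFun`  : polynomial functions `(ι → k) → k`;
* `oavg`       : average of a function over a (finite) orbit;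
* `Ht`, `habs`, `hM`, `hW` : naive sum of local log norms, absolute height (orbit average), height of a
                 matrix (= of its row space), height of a subspace of `Qb^m`.
-/

set_option autoImplicit false

namespace Fermat.Agent.S17.HN

noncomputable section

/-- A family of absolute values on `k`, nonarchimedean outside the finite set `arch`, such that every
element of `k` has `|x|_v ≤ 1` for almost all `v`. -/
structure AbsFam (k : Type) [Field k] where
  Pl : Type
  av : Pl → AbsoluteValue k ℝ
  arch : Set Pl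
  arch_finite : arch.Finite
  nonarch : ∀ v, v ∉ arch → IsNonarchimedean (av v)
  finite_one_lt : ∀ x : k, {v | 1 < av v x}.Finite

/-- Admissible constants. -/
structure AdmConst {k : Type} [Field k] (𝒜 : AbsFam k) where
  c : 𝒜.Pl → ℝ
  one_le : ∀ v, 1 ≤ c v
  finite_ne : {v | c v ≠ 1}.Finite

/-- `∑_v log C_v`. -/
def AdmConst.total {k : Type} [Field k] {𝒜 : AbsFam k} (C : AdmConst 𝒜) : ℝ :=
  ∑ᶠ v, Real.log (C.c v)

section Local

variable {k : Type} [Field k]

/-- sup norm of a vector. -/
def vnorm (v : AbsoluteValue k ℝ) {ι : Type} (x : ι → k) : ℝ := ⨆ i, v (x i)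

/-- all maximal minors of an `r × m` matrix (indexed by ALL maps `Fin r → Fin m`). -/
def minors {r m : ℕ} (M : Matrix (Fin r) (Fin m) k) : (Fin r → Fin m) → k :=
  fun s => (M.submatrix id s).det

/-- the largest absolute value of a maximal minor. -/
def msize (v : AbsoluteValue k ℝ) {r m : ℕ} (M : Matrix (Fin r) (Fin m) k) : ℝ :=
  vnorm v (minors M)

/-- the constant in `|x_1 + .. + x_n| ≤ nc n · max |x_i|`. -/
def nc (v : AbsoluteValue k ℝ) (n : ℕ) : ℝ :=
  haveI := Classical.propDecidable (IsNonarchimedean v)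
  if IsNonarchimedean v then 1 else max 1 (n : ℝ)

/-- local constants (helper17's shape): combinatorial factor `M` at archimedean `w`, and the sizes of
finitely many elements `S` of `k` (coefficients of certificates, structure constants). -/
def locC (M : ℝ) (S : Multiset k) (w : AbsoluteValue k ℝ) : ℝ :=
  haveI := Classical.propDecidable (IsNonarchimedean w)
  (if IsNonarchimedean w then 1 else M) * (S.map fun s => max 1 (w s)).prod

/-- polynomial functions. -/
def IsPolyFun {ι : Type} (φ : (ι → k) → k) : Prop :=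
  ∃ p : MvPolynomial ι k, ∀ z, φ z = MvPolynomial.eval z p

end Local

/-- average of `φ` over the orbit of `x` (meaningful if the orbit is finite). -/
def oavg (G : Type) {X : Type} [Group G] [MulAction G X] (φ : X → ℝ) (x : X) : ℝ :=
  (∑ᶠ y ∈ MulAction.orbit G x, φ y) / (Nat.card (MulAction.orbit G x) : ℝ)

/-- `∑_v log ‖x‖_v`. -/
def Ht {k : Type} [Field k] (𝒜 : AbsFam k) {ι : Type} (x : ι → k) : ℝ :=
  ∑ᶠ v, Real.log (vnorm (𝒜.av v) x)

abbrev Qb : Type := AlgebraicClosure ℚ
abbrev GQ : Type := Qb ≃ₐ[ℚ] Qb

/-- The family restricts to the standard one on `ℚ` (as far as we need it). -/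
structure AbsFam.IsStd (𝒜 : AbsFam Qb) : Prop where
  prod_formula : ∀ q : ℚ, q ≠ 0 → ∑ᶠ v, Real.log (𝒜.av v (algebraMap ℚ Qb q)) = 0
  exists_inf : ∃ w, 𝒜.arch = {w} ∧ ∀ q : ℚ, 𝒜.av w (algebraMap ℚ Qb q) = |(q : ℝ)|

/-- absolute logarithmic height of a vector over `Qb`: orbit average of `Ht`. -/
def habs (𝒜 : AbsFam Qb) {ι : Type} (x : ι → Qb) : ℝ := oavg GQ (Ht 𝒜) x

/-- height of (the row space of) a matrix. -/
def hM (𝒜 : AbsFam Qb) {r m : ℕ} (M : Matrix (Fin r) (Fin m) Qb) : ℝ := habs 𝒜 (minors M)

/-- a basis matrix of a subspace. -/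
def bmat {m : ℕ} (W : Submodule Qb (Fin m → Qb)) :
    Matrix (Fin (Module.finrank Qb W)) (Fin m) Qb :=
  Matrix.of fun i => ((Module.finBasis Qb W i : W) : Fin m → Qb)

/-- height of a subspace of `Qb^m`. -/
def hW (𝒜 : AbsFam Qb) {m : ℕ} (W : Submodule Qb (Fin m → Qb)) : ℝ := hM 𝒜 (bmat W)

/-! ### Interface of the global height (constructed in block HA; everything in HN is relative to it) -/

/-- a nonzero vector over `Qb` with a finite index type -/
structure FVec where
  ι : Type
  [fin : Finite ι]
  x : ι → Qb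
  ne : x ≠ 0

/-- **The global height interface.** `ht` = absolute logarithmic height of a vector over `Qb`.
`transfer`: a local inequality between products of sup norms, valid for ALL absolute values `w` of
`Qb` with a constant `locC M S w`, gives the inequality of heights with a constant depending only on
`(M, S)`. -/
structure GHt where
  ht : ∀ {ι : Type}, (ι → Qb) → ℝ
  nonneg : ∀ {ι : Type} [Finite ι] (x : ι → Qb), 0 ≤ ht x
  smul : ∀ {ι : Type} [Finite ι] (c : Qb) (x : ι → Qb), c ≠ 0 → ht (c • x) = ht x
  transfer : ∀ (M : ℝ) (S : Multiset Qb), ∃ c : ℝ, ∀ L₁ L₂ : List FVec,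
    (∀ w : AbsoluteValue Qb ℝ, (L₁.map fun X => vnorm w X.x).prod
      ≤ locC M S w * (L₂.map fun X => vnorm w X.x).prod) →
    (L₁.map fun X => ht X.x).sum ≤ (L₂.map fun X => ht X.x).sum + c
  prim : ∀ {ι : Type} [Fintype ι] (x : ι → ℤ), Finset.univ.gcd x = 1 →
    ht (fun i => ((x i : ℤ) : Qb)) = Real.log (⨆ i, |(x i : ℝ)|)

section Coord

variable {K : Type} [Field K]

/-- row space of a matrix -/
def rowSpan {r d : ℕ} (M : Matrix (Fin r) (Fin d) K) : Submodule K (Fin d → K) :=
  Submodule.span K (Set.range fun i => M i)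

/-- all rows but the first -/
def tl {r d : ℕ} (M : Matrix (Fin (r + 1)) (Fin d) K) : Matrix (Fin r) (Fin d) K :=
  M.submatrix Fin.succ id

/-- a set of `r`-dimensional subspaces of `K^d` which is Zariski closed in the Grassmannian: on
matrices with independent rows, membership of the row space is given by polynomial equations. -/
def IsClosedFam (r d : ℕ) (𝒵 : Set (Submodule K (Fin d → K))) : Prop :=
  (∀ W ∈ 𝒵, Module.finrank K W = r) ∧
  ∃ (γ : Type) (G : γ → ((Fin r × Fin d) → K) → K), (∀ j, IsPolyFun (G j)) ∧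
    ∀ M : Matrix (Fin r) (Fin d) K, LinearIndependent K (fun i => M i) →
      ((∀ j, G j (fun p => M p.1 p.2) = 0) ↔ rowSpan M ∈ 𝒵)

end Coord

/-- height of a subspace of `Qb^d` w.r.t. a global height -/
def GHt.hS (𝔥 : GHt) {d : ℕ} (W : Submodule Qb (Fin d → Qb)) : ℝ := 𝔥.ht (minors (bmat W))

end

end Fermat.Agent.S17.HN
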