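import Fermat.Agent.S17.HN.Grp.North
import Fermat.Agent.S17.HN.Grp.GrpAx
import Fermat.Agent.S17.HN.FO.Final

/-! # HN: assembly -/

set_option autoImplicit false

namespace Fermat.Agent.S17.HN

open AlgebraicCurve Fermat.Agent.S24.FF Fermat.Agent.S27 Fermat.Agent.GAL.FF Fermat.Agent.S17.FFK

variable (X : RatCurve) (𝔥 : GHt)

/-- **GRP7.** the group axioms. -/
noncomputable def grpAx (hS : CSiegel) (hN : X.CNC) : FO.GrpAx (htAx X 𝔥) X.Gam where
  Ax := fun x => Classical.choose (exists_Ax X x)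
  deg_Ax := fun x => (Classical.choose_spec (exists_Ax X x)).1
  i0 := 3 * gen X + 1
  add_rel := grp7_add_rel X
  sub_rel := grp7_sub_rel X
  St := {G | ∀ σ : GQ, X.act σ • (FO.up G : Divisor Qb X.F) = FO.up G}
  siegel := grp7_siegel X 𝔥 hS
  inj := grp7_inj X
  northcott := fun d T => northcott_geo X 𝔥 hN d T

/-- **HN main theorem.** -/
theorem heightData_ratCurve (hG : Nonempty GHt) (hS : CSiegel) (hN : X.CNC) :
    ∃ (h : X.Gam → ℝ) (C : ℝ), (∀ x, 0 ≤ h x) ∧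
      (∀ x y, |h (x + y) + h (x - y) - 2 * (h x + h y)| ≤ C) ∧
      (∀ B : ℝ, {x | h x ≤ B}.Finite) := by
  obtain ⟨𝔥⟩ := hG
  exact FO.heightData (htAx X 𝔥) (grpAx X 𝔥 hS hN)

end Fermat.Agent.S17.HN
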