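import Fermat.Agent.S17.Top
import Fermat.Agent.S17.WM.Direct
import Fermat.Agent.S17.GS.Inst
import Fermat.Agent.S17.GL.Siegel
import Fermat.Agent.S17.GL.CNC
import Fermat.Agent.S17.HA.MainB
import Fermat.Agent.S17.HN.Main

/-!
# S17: the chain  frozen S17 ⇐ blocks  (HN route)

* `WM.weakMW_direct`        : weak Mordell–Weil
* `exists_ratCurve`         : `X₀(N)` is a `RatCurve`, `X.Gam ≃+ Gam N`
* `csiegel`, `RatCurve.cnc` : Siegel's lemma over `ℚ`, Northcott for norm polynomials
* `HA.nonempty_GHt_B`        : the absolute height on `Qb^n`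
* `HN.heightData_ratCurve`  : quasi-quadratic Northcott height on `X.Gam`
-/

set_option autoImplicit false

namespace Fermat.Agent.S17

/-- transport of the height along `X.Gam ≃+ Gam N`. -/
theorem heightData (N : ℕ) [NeZero N] : HeightData N := by
  obtain ⟨X, ⟨e⟩⟩ := exists_ratCurve N
  obtain ⟨h, C, h0, hpar, hfin⟩ := HN.heightData_ratCurve X HA.nonempty_GHt_B csiegel X.cnc
  refine ⟨fun x => h (e.symm x), C, fun x => h0 _, fun x y => ?_, fun B => ?_⟩
  · simpa only [map_add, map_sub] using hpar (e.symm x) (e.symm y)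
  · refine ((hfin B).image e).subset fun x hx => ?_
    exact ⟨e.symm x, hx, e.apply_symm_apply x⟩

theorem mordellWeil (N : ℕ) [NeZero N] : AddGroup.FG (Gam N) :=
  fg_of_contracts N (WM.weakMW_direct N 2 two_pos) (heightData N)

end Fermat.Agent.S17
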