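import Fermat.Agent.S17.HN.Defs

/-! # HN-LA, part LA-1: rank and minors (no absolute value) -/

set_option autoImplicit false

namespace Fermat.Agent.S17.HN

variable {K : Type} [Field K]

/-- `t ≤ rank T`: there are `t` linearly independent rows -/
theorem la1_exists_rows {ρ κ : Type} [Fintype ρ] [Fintype κ] (T : Matrix ρ κ K) (t : ℕ)
    (h : t ≤ T.rank) : ∃ a : Fin t → ρ, LinearIndependent K (fun i => T (a i)) := by
  rw [Matrix.rank_eq_finrank_span_row] at h
  obtain ⟨f, hf, -, hli⟩ := Submodule.exists_fun_fin_finrank_span_eq K (Set.range T.row)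
  choose a ha using hf
  refine ⟨fun i => a (Fin.castLE h i), ?_⟩
  have h1 : (fun i : Fin t => T (a (Fin.castLE h i))) = f ∘ Fin.castLE h := by
    funext i
    exact ha _
  rw [h1]
  exact hli.comp _ (Fin.castLE_injective h)

/-- a square matrix with independent rows has nonzero determinant -/
theorem la1_det_ne_zero {t : ℕ} (A : Matrix (Fin t) (Fin t) K)
    (h : LinearIndependent K (fun i => A i)) : A.det ≠ 0 := by
  have h1 : IsUnit A := Matrix.linearIndependent_rows_iff_isUnit.1 h
  exact ((Matrix.isUnit_iff_isUnit_det A).1 h1).ne_zero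

theorem la1_linearIndependent_of_det_ne_zero {t : ℕ} (A : Matrix (Fin t) (Fin t) K)
    (h : A.det ≠ 0) : LinearIndependent K (fun i => A i) :=
  Matrix.linearIndependent_rows_iff_isUnit.2 ((Matrix.isUnit_iff_isUnit_det A).2 h.isUnit)

/-- independent rows: some maximal minor does not vanish -/
theorem la1_exists_cols {κ : Type} [Fintype κ] {t : ℕ} (T : Matrix (Fin t) κ K)
    (h : LinearIndependent K (fun i => T i)) : ∃ b : Fin t → κ, (T.submatrix id b).det ≠ 0 := by
  have hr : T.rank = t := by
    have := LinearIndependent.rank_matrix (M := T) h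
    simpa using this
  obtain ⟨b, hb⟩ := la1_exists_rows T.transpose t (by rw [Matrix.rank_transpose, hr])
  refine ⟨b, ?_⟩
  rw [← Matrix.det_transpose]
  exact la1_det_ne_zero _ hb

/-- if the rows of a submatrix are independent, so are the full rows -/
theorem la1_linearIndependent_rows {ρ κ : Type} (T : Matrix ρ κ K) {t : ℕ}
    (a : Fin t → ρ) (b : Fin t → κ) (h : (T.submatrix a b).det ≠ 0) :
    LinearIndependent K (fun i => T (a i)) := by
  have h1 := la1_linearIndependent_of_det_ne_zero _ h
  exact LinearIndependent.of_comp (LinearMap.funLeft K K b) h1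

theorem exists_submatrix_det_ne_zero' {ρ κ : Type} [Fintype ρ] [Fintype κ] (T : Matrix ρ κ K) (t : ℕ)
    (h : t ≤ T.rank) : ∃ (a : Fin t → ρ) (b : Fin t → κ), (T.submatrix a b).det ≠ 0 := by
  obtain ⟨a, ha⟩ := la1_exists_rows T t h
  obtain ⟨b, hb⟩ := la1_exists_cols (T.submatrix a id) ha
  exact ⟨a, b, hb⟩

theorem le_rank_of_submatrix_det_ne_zero' {ρ κ : Type} [Fintype ρ] [Fintype κ] (T : Matrix ρ κ K)
    (t : ℕ) (a : Fin t → ρ) (b : Fin t → κ) (h : (T.submatrix a b).det ≠ 0) : t ≤ T.rank := by
  have h1 : (T.submatrix a b).rank = t := by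
    have := Matrix.rank_of_isUnit _ ((Matrix.isUnit_iff_isUnit_det _).2 h.isUnit)
    simpa using this
  rw [← h1]
  exact Matrix.rank_submatrix_le T a b

theorem exists_minor_ne_zero' {r d : ℕ} (M : Matrix (Fin r) (Fin d) K)
    (h : LinearIndependent K (fun i => M i)) : ∃ s, minors M s ≠ 0 :=
  la1_exists_cols M h

theorem linearIndependent_of_minor_ne_zero' {r d : ℕ} (M : Matrix (Fin r) (Fin d) K)
    (s : Fin r → Fin d) (h : minors M s ≠ 0) : LinearIndependent K (fun i => M i) :=
  la1_linearIndependent_rows M id s h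

theorem minors_mul' {r d : ℕ} (g : Matrix (Fin r) (Fin r) K) (M : Matrix (Fin r) (Fin d) K) :
    minors (g * M) = g.det • minors M := by
  funext s
  have h1 : (g * M).submatrix id s = g * M.submatrix id s := by
    rw [Matrix.submatrix_mul g M id id s Function.bijective_id, Matrix.submatrix_id_id]
  show ((g * M).submatrix id s).det = g.det * (M.submatrix id s).det
  rw [h1, Matrix.det_mul]

/-- two bases of the same subspace differ by an invertible matrix -/
theorem exists_mul_of_rowSpan_eq' {r d : ℕ} (M N : Matrix (Fin r) (Fin d) K)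
    (hM : LinearIndependent K (fun i => M i)) (hN : LinearIndependent K (fun i => N i))
    (h : rowSpan M = rowSpan N) : ∃ g : Matrix (Fin r) (Fin r) K, g.det ≠ 0 ∧ M = g * N := by
  have h1 : ∀ i, ∃ c : Fin r → K, ∑ j, c j • N j = M i := by
    intro i
    have h2 : M i ∈ rowSpan N := by
      rw [← h]
      exact Submodule.subset_span ⟨i, rfl⟩
    exact (Submodule.mem_span_range_iff_exists_fun K).1 h2
  choose g hg using h1
  have hMg : M = Matrix.of g * N := by
    ext i j
    rw [← hg i, Matrix.mul_apply, Finset.sum_apply]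
    rfl
  refine ⟨Matrix.of g, ?_, hMg⟩
  obtain ⟨s, hs⟩ := exists_minor_ne_zero' M hM
  intro h0
  apply hs
  rw [hMg, minors_mul', h0, zero_smul]
  rfl

end Fermat.Agent.S17.HN
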