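import Fermat.Agent.S17.HN.LA1

/-! # HN-LA: linear algebra over a field with one absolute value -/

set_option autoImplicit false

namespace Fermat.Agent.S17.HN

variable {K : Type} [Field K]

/-! ## LA-1: rank and minors (no absolute value) -/

theorem exists_submatrix_det_ne_zero {ρ κ : Type} [Fintype ρ] [Fintype κ] (T : Matrix ρ κ K) (t : ℕ)
    (h : t ≤ T.rank) : ∃ (a : Fin t → ρ) (b : Fin t → κ), (T.submatrix a b).det ≠ 0 :=
  exists_submatrix_det_ne_zero' T t h

theorem le_rank_of_submatrix_det_ne_zero {ρ κ : Type} [Fintype ρ] [Fintype κ] (T : Matrix ρ κ K) (t : ℕ)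
    (a : Fin t → ρ) (b : Fin t → κ) (h : (T.submatrix a b).det ≠ 0) : t ≤ T.rank :=
  le_rank_of_submatrix_det_ne_zero' T t a b h

theorem exists_minor_ne_zero {r d : ℕ} (M : Matrix (Fin r) (Fin d) K)
    (h : LinearIndependent K (fun i => M i)) : ∃ s, minors M s ≠ 0 :=
  exists_minor_ne_zero' M h

theorem linearIndependent_of_minor_ne_zero {r d : ℕ} (M : Matrix (Fin r) (Fin d) K) (s : Fin r → Fin d)
    (h : minors M s ≠ 0) : LinearIndependent K (fun i => M i) :=
  linearIndependent_of_minor_ne_zero' M s h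

theorem minors_mul {r d : ℕ} (g : Matrix (Fin r) (Fin r) K) (M : Matrix (Fin r) (Fin d) K) :
    minors (g * M) = g.det • minors M :=
  minors_mul' g M

/-- two bases of the same subspace differ by an invertible matrix -/
theorem exists_mul_of_rowSpan_eq {r d : ℕ} (M N : Matrix (Fin r) (Fin d) K)
    (hM : LinearIndependent K (fun i => M i)) (hN : LinearIndependent K (fun i => N i))
    (h : rowSpan M = rowSpan N) : ∃ g : Matrix (Fin r) (Fin r) K, g.det ≠ 0 ∧ M = g * N :=
  exists_mul_of_rowSpan_eq' M N hM hN h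

/-! ## LA-2: estimates -/

theorem vnorm_nonneg (w : AbsoluteValue K ℝ) {ι : Type} (x : ι → K) : 0 ≤ vnorm w x :=
  Real.iSup_nonneg fun _ => w.nonneg _

theorem le_vnorm (w : AbsoluteValue K ℝ) {ι : Type} [Finite ι] (x : ι → K) (i : ι) :
    w (x i) ≤ vnorm w x :=
  le_ciSup (f := fun i => w (x i)) (Set.finite_range _).bddAbove i

theorem vnorm_le (w : AbsoluteValue K ℝ) {ι : Type} (x : ι → K) {B : ℝ} (hB : 0 ≤ B)
    (h : ∀ i, w (x i) ≤ B) : vnorm w x ≤ B :=
  Real.iSup_le h hB

theorem vnorm_pos (w : AbsoluteValue K ℝ) {ι : Type} [Finite ι] {x : ι → K} (hx : x ≠ 0) :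
    0 < vnorm w x := by
  obtain ⟨i, hi⟩ := Function.ne_iff.mp hx
  exact (w.pos hi).trans_le (le_vnorm w x i)

theorem exists_vnorm_eq (w : AbsoluteValue K ℝ) {ι : Type} [Finite ι] [Nonempty ι] (x : ι → K) :
    ∃ i, vnorm w x = w (x i) := by
  obtain ⟨i, hi⟩ := exists_eq_ciSup_of_finite (f := fun i => w (x i))
  exact ⟨i, hi.symm⟩

theorem vnorm_smul (w : AbsoluteValue K ℝ) {ι : Type} [Finite ι] (c : K) (x : ι → K) :
    vnorm w (c • x) = w c * vnorm w x := by
  unfold vnorm
  rw [Real.mul_iSup_of_nonneg (w.nonneg c)]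
  simp only [Pi.smul_apply, smul_eq_mul, map_mul]

theorem msize_mul (w : AbsoluteValue K ℝ) {r d : ℕ} (g : Matrix (Fin r) (Fin r) K)
    (M : Matrix (Fin r) (Fin d) K) : msize w (g * M) = w g.det * msize w M := by
  unfold msize
  rw [minors_mul, vnorm_smul]

theorem msize_pos (w : AbsoluteValue K ℝ) {r d : ℕ} (M : Matrix (Fin r) (Fin d) K)
    (h : LinearIndependent K (fun i => M i)) : 0 < msize w M := by
  obtain ⟨s, hs⟩ := exists_minor_ne_zero M h
  exact vnorm_pos w (fun h0 => hs (by rw [h0]; rfl))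

theorem LA_locC_zero_of_nonarch {w : AbsoluteValue K ℝ} (h : IsNonarchimedean w) (M : ℝ) :
    locC M 0 w = 1 := by
  unfold locC
  rw [if_pos h]
  simp

theorem LA_locC_zero_of_arch {w : AbsoluteValue K ℝ} (h : ¬ IsNonarchimedean w) (M : ℝ) :
    locC M 0 w = M := by
  unfold locC
  rw [if_neg h]
  simp

theorem LA_locC_zero_nonneg (w : AbsoluteValue K ℝ) {M : ℝ} (hM : 0 ≤ M) : 0 ≤ locC M 0 w := by
  by_cases h : IsNonarchimedean w
  · rw [LA_locC_zero_of_nonarch h]; exact zero_le_one
  · rwa [LA_locC_zero_of_arch h]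

/-- sums: `|∑_{i ∈ s} x_i| ≤ locC (card s) 0 w · B` -/
theorem abv_sum_le (w : AbsoluteValue K ℝ) {α : Type} (s : Finset α) (x : α → K) {B : ℝ} (hB : 0 ≤ B)
    (h : ∀ i ∈ s, w (x i) ≤ B) : w (∑ i ∈ s, x i) ≤ locC (max 1 s.card) 0 w * B := by
  by_cases hw : IsNonarchimedean w
  · rw [LA_locC_zero_of_nonarch hw, one_mul]
    rcases s.eq_empty_or_nonempty with rfl | hs
    · simpa using hB
    · obtain ⟨i, hi, hle⟩ := hw.finset_image_add_of_nonempty x hs
      exact hle.trans (h i hi)
  · rw [LA_locC_zero_of_arch hw]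
    calc w (∑ i ∈ s, x i) ≤ ∑ i ∈ s, w (x i) := w.sum_le s x
      _ ≤ ∑ _i ∈ s, B := Finset.sum_le_sum h
      _ = s.card * B := by rw [Finset.sum_const, nsmul_eq_mul]
      _ ≤ max 1 (s.card : ℝ) * B := by gcongr; exact le_max_right _ _

/-- determinants: `|det A| ≤ locC n! 0 w · B^n` -/
theorem abv_det_le (w : AbsoluteValue K ℝ) {n : ℕ} (A : Matrix (Fin n) (Fin n) K) {B : ℝ} (hB : 0 ≤ B)
    (h : ∀ i j, w (A i j) ≤ B) : w A.det ≤ locC n.factorial 0 w * B ^ n := by
  rw [Matrix.det_apply']
  have h1 := abv_sum_le w (Finset.univ : Finset (Equiv.Perm (Fin n)))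
    (fun σ => ((Equiv.Perm.sign σ : ℤ) : K) * ∏ i, A (σ i) i) (B := B ^ n) (pow_nonneg hB n) (by
      intro σ _
      rw [map_mul, map_prod]
      have h2 : w ((Equiv.Perm.sign σ : ℤ) : K) = 1 := by
        rcases Int.units_eq_one_or (Equiv.Perm.sign σ) with h | h <;> simp [h]
      rw [h2, one_mul]
      calc ∏ i, w (A (σ i) i) ≤ ∏ _i : Fin n, B :=
            Finset.prod_le_prod (fun i _ => w.nonneg _) (fun i _ => h _ _)
        _ = B ^ n := by simp)
  have h3 : max 1 (((Finset.univ : Finset (Equiv.Perm (Fin n))).card : ℕ) : ℝ) = (n.factorial : ℝ) := by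
    rw [Finset.card_univ, Fintype.card_perm, Fintype.card_fin]
    exact max_eq_right (by exact_mod_cast Nat.one_le_iff_ne_zero.2 (Nat.factorial_ne_zero n))
  rwa [h3] at h1

/-- the minor of a matrix with an identity block, one column replaced -/
theorem LA_minors_update {r d : ℕ} (f : Matrix (Fin r) (Fin d) K) (α : Fin r → Fin d)
    (hf : f.submatrix id α = 1) (i : Fin r) (j : Fin d) :
    minors f (Function.update α i j) = f i j := by
  have h1 : f.submatrix id (Function.update α i j) =
      (1 : Matrix (Fin r) (Fin r) K).updateCol i (fun l => f l j) := by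
    rw [← hf]
    ext a b
    rw [Matrix.updateCol_apply, Matrix.submatrix_apply, Matrix.submatrix_apply,
      Function.update_apply]
    split_ifs <;> rfl
  unfold minors
  rw [h1, ← Matrix.cramer_apply, Matrix.cramer_one]
  rfl

/-- **(ON)** normalised basis: `M = g f`, `f` has an identity block and all entries `≤ 1`. -/
theorem exists_ON (w : AbsoluteValue K ℝ) {r d : ℕ} (M : Matrix (Fin r) (Fin d) K)
    (h : LinearIndependent K (fun i => M i)) :
    ∃ (g : Matrix (Fin r) (Fin r) K) (f : Matrix (Fin r) (Fin d) K) (α : Fin r → Fin d),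
      g.det ≠ 0 ∧ M = g * f ∧ f.submatrix id α = 1 ∧ (∀ i j, w (f i j) ≤ 1) ∧
      w g.det = msize w M := by
  obtain ⟨s₀, hs₀⟩ := exists_minor_ne_zero M h
  have : Nonempty (Fin r → Fin d) := ⟨s₀⟩
  obtain ⟨α, hα⟩ := exists_vnorm_eq w (minors M)
  have hpos := msize_pos w M h
  have hdet : (M.submatrix id α).det ≠ 0 := by
    intro h0
    have h1 : msize w M = w (minors M α) := hα
    rw [h1, minors, h0, map_zero] at hpos
    exact lt_irrefl _ hpos
  have hunit : IsUnit (M.submatrix id α).det := isUnit_iff_ne_zero.2 hdet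
  have hM : M = M.submatrix id α * ((M.submatrix id α)⁻¹ * M) := by
    rw [← Matrix.mul_assoc, Matrix.mul_nonsing_inv _ hunit, Matrix.one_mul]
  have hblock : ((M.submatrix id α)⁻¹ * M).submatrix id α = 1 := by
    have h1 : ((M.submatrix id α)⁻¹ * M).submatrix id α
        = (M.submatrix id α)⁻¹ * M.submatrix id α := by
      ext a b
      simp [Matrix.mul_apply]
    rw [h1, Matrix.nonsing_inv_mul _ hunit]
  refine ⟨M.submatrix id α, (M.submatrix id α)⁻¹ * M, α, hdet, hM, hblock, fun i j => ?_, hα.symm⟩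
  rw [← LA_minors_update _ α hblock i j]
  have h2 : minors M = (M.submatrix id α).det • minors ((M.submatrix id α)⁻¹ * M) := by
    conv_lhs => rw [hM]
    rw [minors_mul]
  have h3 := le_vnorm w (minors M) (Function.update α i j)
  have h4 : vnorm w (minors M) = w (M.submatrix id α).det := hα
  rw [h4, h2, Pi.smul_apply, smul_eq_mul, map_mul] at h3
  have h5 : 0 < w (M.submatrix id α).det := w.pos hdet
  exact le_of_mul_le_mul_left (by rwa [mul_one]) h5

/-- **(L2a)** Laplace expansion along the vector `c ᵥ* M` put in row `a`. -/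
theorem laplace_bound (w : AbsoluteValue K ℝ) {r d : ℕ} (M : Matrix (Fin (r + 1)) (Fin d) K)
    (c : Fin (r + 1) → K) (a : Fin (r + 1)) :
    w (c a) * msize w M ≤ locC (r + 1) 0 w * (vnorm w (Matrix.vecMul c M) *
      msize w (M.submatrix (Fin.succAbove a) id)) := by
  have hB : 0 ≤ vnorm w (Matrix.vecMul c M) * msize w (M.submatrix (Fin.succAbove a) id) :=
    mul_nonneg (vnorm_nonneg _ _) (vnorm_nonneg _ _)
  unfold msize
  rw [← vnorm_smul]
  refine vnorm_le w _ (mul_nonneg (LA_locC_zero_nonneg w (by positivity)) hB) fun s => ?_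
  rw [Pi.smul_apply]
  have h1 := Matrix.det_updateRow_sum (M.submatrix id s) a c
  have h2 : (∑ k, c k • (M.submatrix id s) k) = fun j => Matrix.vecMul c M (s j) := by
    funext j
    simp [Matrix.vecMul, dotProduct, Finset.sum_apply]
  rw [h2] at h1
  have h3 : c a • minors M s = c a • (M.submatrix id s).det := rfl
  rw [h3, ← h1, Matrix.det_succ_row _ a]
  have h4 := abv_sum_le w (Finset.univ : Finset (Fin (r + 1)))
    (fun j => (-1) ^ ((a : ℕ) + (j : ℕ)) *
      ((M.submatrix id s).updateRow a fun j => Matrix.vecMul c M (s j)) a j *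
      (((M.submatrix id s).updateRow a fun j => Matrix.vecMul c M (s j)).submatrix
        a.succAbove j.succAbove).det) hB (by
      intro j _
      rw [map_mul, map_mul, map_pow, map_neg_eq_map, map_one, one_pow, one_mul,
        Matrix.updateRow_self]
      refine mul_le_mul (le_vnorm w _ _) ?_ (w.nonneg _) (vnorm_nonneg _ _)
      have h5 : (((M.submatrix id s).updateRow a fun j => Matrix.vecMul c M (s j)).submatrix
          a.succAbove j.succAbove) =
          (M.submatrix (Fin.succAbove a) id).submatrix id (s ∘ j.succAbove) := by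
        ext p q
        rw [Matrix.submatrix_apply, Matrix.updateRow_ne (Fin.succAbove_ne a p)]
        rfl
      rw [h5]
      exact le_vnorm w (minors (M.submatrix (Fin.succAbove a) id)) (s ∘ j.succAbove))
  have h6 : max 1 (((Finset.univ : Finset (Fin (r + 1))).card : ℕ) : ℝ) = (r : ℝ) + 1 := by
    rw [Finset.card_univ, Fintype.card_fin]
    push_cast
    exact max_eq_right (by linarith [(Nat.cast_nonneg r : (0 : ℝ) ≤ r)])
  rw [h6] at h4
  exact h4

/-- **(L2b)** a vector with first coordinate `1` which is as small as possible. -/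
theorem exists_small_vector (w : AbsoluteValue K ℝ) {r d : ℕ} (M : Matrix (Fin (r + 1)) (Fin d) K)
    (h : LinearIndependent K (fun i => M i)) :
    ∃ c : Fin (r + 1) → K, c 0 = 1 ∧ vnorm w (Matrix.vecMul c M) * msize w (tl M) ≤ msize w M := by
  have htl : LinearIndependent K (fun i => tl M i) := h.comp Fin.succ (Fin.succ_injective _)
  obtain ⟨s₀, hs₀⟩ := exists_minor_ne_zero (tl M) htl
  have : Nonempty (Fin r → Fin d) := ⟨s₀⟩
  obtain ⟨s', hs'⟩ := exists_vnorm_eq w (minors (tl M))
  have hpos := msize_pos w (tl M) htl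
  have hs'' : msize w (tl M) = w ((tl M).submatrix id s').det := hs'
  have hD : ((tl M).submatrix id s').det ≠ 0 := by
    intro h0
    rw [hs'', h0, map_zero] at hpos
    exact lt_irrefl _ hpos
  refine ⟨fun i => (-1) ^ (i : ℕ) * (M.submatrix (Fin.succAbove i) s').det /
    ((tl M).submatrix id s').det, ?_, ?_⟩
  · have h1 : M.submatrix (Fin.succAbove 0) s' = (tl M).submatrix id s' := by
      ext p q
      simp [tl, Fin.succAbove_zero]
    simp only [h1, Fin.val_zero, pow_zero, one_mul]
    exact div_self hD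
  · rw [← le_div_iff₀ hpos]
    refine vnorm_le w _ (div_nonneg (vnorm_nonneg _ _) hpos.le) fun j => ?_
    have h2 : Matrix.vecMul (fun i : Fin (r + 1) =>
        (-1) ^ (i : ℕ) * (M.submatrix (Fin.succAbove i) s').det /
        ((tl M).submatrix id s').det) M j =
        minors M (Fin.cons j s') / ((tl M).submatrix id s').det := by
      unfold minors
      rw [Matrix.det_succ_column_zero, Finset.sum_div]
      simp only [Matrix.vecMul, dotProduct]
      refine Finset.sum_congr rfl fun i _ => ?_
      have h3 : (M.submatrix id (Fin.cons j s' : Fin (r + 1) → Fin d)).submatrix i.succAbove Fin.succ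
          = M.submatrix (Fin.succAbove i) s' := by
        ext p q
        simp
      rw [h3, Matrix.submatrix_apply, Fin.cons_zero, id]
      ring
    rw [h2, map_div₀, hs'']
    gcongr
    exact le_vnorm w (minors M) _

end Fermat.Agent.S17.HN
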