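import Fermat.Agent.S17.HN.Defs

/-! # HN-NS: polynomial functions and the Nullstellensatz inequality -/

set_option autoImplicit false

namespace Fermat.Agent.S17.HN

variable {k : Type} [Field k] {ι : Type}

theorem IsPolyFun.const (c : k) : IsPolyFun (fun _ : ι → k => c) :=
  ⟨MvPolynomial.C c, fun z => by simp⟩

theorem IsPolyFun.proj (i : ι) : IsPolyFun (fun z : ι → k => z i) :=
  ⟨MvPolynomial.X i, fun z => by simp⟩

theorem IsPolyFun.add {φ ψ : (ι → k) → k} (h₁ : IsPolyFun φ) (h₂ : IsPolyFun ψ) :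
    IsPolyFun (fun z => φ z + ψ z) := by
  obtain ⟨p, hp⟩ := h₁
  obtain ⟨q, hq⟩ := h₂
  exact ⟨p + q, fun z => by simp [hp, hq]⟩

theorem IsPolyFun.mul {φ ψ : (ι → k) → k} (h₁ : IsPolyFun φ) (h₂ : IsPolyFun ψ) :
    IsPolyFun (fun z => φ z * ψ z) := by
  obtain ⟨p, hp⟩ := h₁
  obtain ⟨q, hq⟩ := h₂
  exact ⟨p * q, fun z => by simp [hp, hq]⟩

theorem IsPolyFun.neg {φ : (ι → k) → k} (h₁ : IsPolyFun φ) : IsPolyFun (fun z => - φ z) := by
  obtain ⟨p, hp⟩ := h₁
  exact ⟨-p, fun z => by simp [hp]⟩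

theorem IsPolyFun.sub {φ ψ : (ι → k) → k} (h₁ : IsPolyFun φ) (h₂ : IsPolyFun ψ) :
    IsPolyFun (fun z => φ z - ψ z) := by
  obtain ⟨p, hp⟩ := h₁
  obtain ⟨q, hq⟩ := h₂
  exact ⟨p - q, fun z => by simp [hp, hq]⟩

theorem IsPolyFun.pow {φ : (ι → k) → k} (h₁ : IsPolyFun φ) (n : ℕ) : IsPolyFun (fun z => φ z ^ n) := by
  obtain ⟨p, hp⟩ := h₁
  exact ⟨p ^ n, fun z => by simp [hp]⟩

theorem IsPolyFun.sum {α : Type} (s : Finset α) {φ : α → (ι → k) → k} (h : ∀ a ∈ s, IsPolyFun (φ a)) :
    IsPolyFun (fun z => ∑ a ∈ s, φ a z) := by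
  classical
  induction s using Finset.induction_on with
  | empty => simpa using IsPolyFun.const (ι := ι) (0 : k)
  | insert a s ha ih =>
    simp only [Finset.sum_insert ha]
    exact (h a (Finset.mem_insert_self a s)).add (ih fun b hb => h b (Finset.mem_insert_of_mem hb))

theorem IsPolyFun.prod {α : Type} (s : Finset α) {φ : α → (ι → k) → k} (h : ∀ a ∈ s, IsPolyFun (φ a)) :
    IsPolyFun (fun z => ∏ a ∈ s, φ a z) := by
  classical
  induction s using Finset.induction_on with
  | empty => simpa using IsPolyFun.const (ι := ι) (1 : k)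
  | insert a s ha ih =>
    simp only [Finset.prod_insert ha]
    exact (h a (Finset.mem_insert_self a s)).mul (ih fun b hb => h b (Finset.mem_insert_of_mem hb))

theorem IsPolyFun.det {n : Type} [Fintype n] [DecidableEq n] {A : (ι → k) → Matrix n n k}
    (h : ∀ a b, IsPolyFun (fun z => A z a b)) : IsPolyFun (fun z => (A z).det) := by
  simp only [Matrix.det_apply']
  exact IsPolyFun.sum _ fun σ _ => (IsPolyFun.const _).mul (IsPolyFun.prod _ fun i _ => h _ _)

/-- substitution of polynomial functions into a polynomial function -/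
theorem IsPolyFun.comp {ι' : Type} {φ : (ι' → k) → k} (h : IsPolyFun φ) {ψ : ι' → (ι → k) → k}
    (hψ : ∀ i, IsPolyFun (ψ i)) : IsPolyFun (fun z => φ (fun i => ψ i z)) := by
  obtain ⟨p, hp⟩ := h
  choose q hq using hψ
  refine ⟨MvPolynomial.bind₁ q p, fun z => ?_⟩
  show φ (fun i => ψ i z) = _
  rw [hp, ← MvPolynomial.aeval_eq_eval, ← MvPolynomial.aeval_eq_eval, MvPolynomial.aeval_bind₁]
  congr 2
  funext i
  rw [hq, MvPolynomial.aeval_eq_eval]

private theorem ns_one_le_prod (w : AbsoluteValue k ℝ) (S : Multiset k) :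
    1 ≤ (S.map fun s => max 1 (w s)).prod := by
  induction S using Multiset.induction_on with
  | empty => simp
  | cons a S ih =>
    rw [Multiset.map_cons, Multiset.prod_cons]
    exact one_le_mul_of_one_le_of_one_le (le_max_left _ _) ih

private theorem ns_le_prod (w : AbsoluteValue k ℝ) (S : Multiset k) {s : k} (hs : s ∈ S) :
    w s ≤ (S.map fun s => max 1 (w s)).prod := by
  induction S using Multiset.induction_on with
  | empty => simp at hs
  | cons a S ih =>
    rw [Multiset.map_cons, Multiset.prod_cons]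
    rcases Multiset.mem_cons.1 hs with rfl | hs'
    · calc w s ≤ max 1 (w s) := le_max_right _ _
        _ = max 1 (w s) * 1 := (mul_one _).symm
        _ ≤ _ := mul_le_mul_of_nonneg_left (ns_one_le_prod w S) (le_trans zero_le_one (le_max_left _ _))
    · calc w s ≤ _ := ih hs'
        _ = 1 * (S.map fun s => max 1 (w s)).prod := (one_mul _).symm
        _ ≤ _ := mul_le_mul_of_nonneg_right (le_max_left _ _)
          (le_trans zero_le_one (ns_one_le_prod w S))

private theorem ns_sum_le {α : Type} (w : AbsoluteValue k ℝ) (hna : IsNonarchimedean w)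
    (s : Finset α) (f : α → k) (B : ℝ) (hB0 : 0 ≤ B) (h : ∀ a ∈ s, w (f a) ≤ B) :
    w (∑ a ∈ s, f a) ≤ B := by
  classical
  induction s using Finset.induction_on with
  | empty => simpa using hB0
  | insert a s ha ih =>
    rw [Finset.sum_insert ha]
    exact (hna _ _).trans (max_le (h a (Finset.mem_insert_self a s))
      (ih fun b hb => h b (Finset.mem_insert_of_mem hb)))

private theorem ns_term_le (w : AbsoluteValue k ℝ) (c : MvPolynomial ι k) (z : ι → k)
    (hz : ∀ i, w (z i) ≤ 1) (B : ℝ) (hB : ∀ m ∈ c.support, w (c.coeff m) ≤ B)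
    (m : ι →₀ ℕ) (hm : m ∈ c.support) :
    w (c.coeff m * ∏ i ∈ m.support, z i ^ m i) ≤ B := by
  rw [map_mul, map_prod]
  have h1 : ∏ i ∈ m.support, w (z i ^ m i) ≤ 1 := by
    refine Finset.prod_le_one (fun i _ => w.nonneg _) fun i _ => ?_
    rw [map_pow]
    exact pow_le_one₀ (w.nonneg _) (hz i)
  calc w (c.coeff m) * ∏ i ∈ m.support, w (z i ^ m i) ≤ w (c.coeff m) * 1 :=
        mul_le_mul_of_nonneg_left h1 (w.nonneg _)
    _ = w (c.coeff m) := mul_one _
    _ ≤ B := hB m hm

private theorem ns_eval_le (w : AbsoluteValue k ℝ) (c : MvPolynomial ι k) (z : ι → k)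
    (hz : ∀ i, w (z i) ≤ 1) (B : ℝ) (hB0 : 0 ≤ B) (hB : ∀ m ∈ c.support, w (c.coeff m) ≤ B) :
    w (MvPolynomial.eval z c) ≤ c.support.card * B ∧
      (IsNonarchimedean w → w (MvPolynomial.eval z c) ≤ B) := by
  rw [MvPolynomial.eval_eq]
  constructor
  · refine (w.sum_le _ _).trans ?_
    have := Finset.sum_le_card_nsmul c.support _ B (ns_term_le w c z hz B hB)
    rwa [nsmul_eq_mul] at this
  · intro hna
    exact ns_sum_le w hna _ _ B hB0 (ns_term_le w c z hz B hB)

/-- **(NS)** Nullstellensatz inequality. -/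
theorem NS [IsAlgClosed k] [Finite ι] {γ Λ : Type} [Finite Λ]
    (G : γ → (ι → k) → k) (hG : ∀ j, IsPolyFun (G j))
    (Φ : Λ → (ι → k) → k) (hΦ : ∀ l, IsPolyFun (Φ l))
    (u : (ι → k) → k) (hu : IsPolyFun u)
    (h : ∀ z, (∀ j, G j z = 0) → (∀ l, Φ l z = 0) → u z = 0) :
    ∃ (M : ℝ) (S : Multiset k), 1 ≤ M ∧ ∀ (w : AbsoluteValue k ℝ) (z : ι → k),
      (∀ i, w (z i) ≤ 1) → (∀ j, G j z = 0) → 1 ≤ w (u z) → ∃ l, 1 ≤ locC M S w * w (Φ l z) := by
  classical
  cases nonempty_fintype Λ
  choose g hg using hG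
  choose φ hφ using hΦ
  obtain ⟨U, hU⟩ := hu
  set I : Ideal (MvPolynomial ι k) := Ideal.span (Set.range g) ⊔ Ideal.span (Set.range φ) with hI
  have hrad : U ∈ I.radical := by
    rw [← MvPolynomial.vanishingIdeal_zeroLocus_eq_radical (K := k),
      MvPolynomial.mem_vanishingIdeal_iff]
    intro z hz
    rw [MvPolynomial.mem_zeroLocus_iff] at hz
    rw [MvPolynomial.aeval_eq_eval, ← hU]
    apply h z
    · intro j
      rw [hg, ← MvPolynomial.aeval_eq_eval]
      exact hz (g j) (Ideal.mem_sup_left (Ideal.subset_span ⟨j, rfl⟩))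
    · intro l
      rw [hφ, ← MvPolynomial.aeval_eq_eval]
      exact hz (φ l) (Ideal.mem_sup_right (Ideal.subset_span ⟨l, rfl⟩))
  obtain ⟨N, hN⟩ := hrad
  obtain ⟨a, ha, b, hb, hab⟩ := Submodule.mem_sup.1 hN
  obtain ⟨c, hc⟩ := Ideal.mem_span_range_iff_exists_fun.1 hb
  have ha0 : ∀ z, (∀ j, G j z = 0) → MvPolynomial.eval z a = 0 := by
    intro z hz
    have hle : Ideal.span (Set.range g) ≤ RingHom.ker (MvPolynomial.eval z) := by
      rw [Ideal.span_le]
      rintro _ ⟨j, rfl⟩
      show MvPolynomial.eval z (g j) = 0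
      rw [← hg]
      exact hz j
    exact hle ha
  have key : ∀ z, (∀ j, G j z = 0) → u z ^ N = ∑ l, MvPolynomial.eval z (c l) * Φ l z := by
    intro z hz
    rw [hU, ← map_pow, ← hab, ← hc, map_add, ha0 z hz, zero_add, map_sum]
    refine Finset.sum_congr rfl fun l _ => ?_
    rw [map_mul, hφ]
  set S : Multiset k := ∑ l, ((c l).support.val.map fun m => (c l).coeff m) with hS
  set K : ℕ := ∑ l, (c l).support.card with hK
  refine ⟨max 1 ((Fintype.card Λ : ℝ) * K), S, le_max_left _ _, ?_⟩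
  intro w z hz hGz h1
  by_contra hcon
  push Not at hcon
  set B : ℝ := (S.map fun s => max 1 (w s)).prod with hB
  have hB1 : 1 ≤ B := ns_one_le_prod w S
  have hB0 : 0 ≤ B := zero_le_one.trans hB1
  have hcoeff : ∀ l, ∀ m ∈ (c l).support, w ((c l).coeff m) ≤ B := by
    intro l m hm
    refine ns_le_prod w S ?_
    rw [hS, Multiset.mem_sum]
    exact ⟨l, Finset.mem_univ l, Multiset.mem_map.2 ⟨m, hm, rfl⟩⟩
  have h1N : 1 ≤ w (∑ l, MvPolynomial.eval z (c l) * Φ l z) := by
    rw [← key z hGz, map_pow]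
    exact one_le_pow₀ h1
  by_cases hna : IsNonarchimedean w
  · have hloc : locC (max 1 ((Fintype.card Λ : ℝ) * K)) S w = B := by
      unfold locC
      rw [if_pos hna, one_mul]
    rw [hloc] at hcon
    rcases isEmpty_or_nonempty Λ with hΛ | hΛ
    · simp at h1N
      linarith
    · obtain ⟨l, -, hl⟩ := hna.finset_image_add_of_nonempty
        (fun l => MvPolynomial.eval z (c l) * Φ l z) (Finset.univ_nonempty (α := Λ))
      have h2 : w (MvPolynomial.eval z (c l) * Φ l z) ≤ B * w (Φ l z) := by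
        rw [map_mul]
        exact mul_le_mul_of_nonneg_right ((ns_eval_le w (c l) z hz B hB0 (hcoeff l)).2 hna)
          (w.nonneg _)
      linarith [hcon l]
  · have hloc : locC (max 1 ((Fintype.card Λ : ℝ) * K)) S w
        = max 1 ((Fintype.card Λ : ℝ) * K) * B := by
      unfold locC
      rw [if_neg hna]
    rw [hloc] at hcon
    rcases isEmpty_or_nonempty Λ with hΛ | hΛ
    · simp at h1N
      linarith
    · have hcard : (0 : ℝ) < Fintype.card Λ := by exact_mod_cast Fintype.card_pos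
      have hterm : ∀ l, w (MvPolynomial.eval z (c l) * Φ l z) < 1 / (Fintype.card Λ : ℝ) := by
        intro l
        rw [lt_div_iff₀' hcard, map_mul]
        have h2 : w (MvPolynomial.eval z (c l)) ≤ K * B := by
          refine (ns_eval_le w (c l) z hz B hB0 (hcoeff l)).1.trans ?_
          refine mul_le_mul_of_nonneg_right ?_ hB0
          exact_mod_cast Finset.single_le_sum (f := fun l => (c l).support.card)
            (fun _ _ => Nat.zero_le _) (Finset.mem_univ l)
        calc (Fintype.card Λ : ℝ) * (w (MvPolynomial.eval z (c l)) * w (Φ l z))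
            ≤ (Fintype.card Λ : ℝ) * ((K * B) * w (Φ l z)) :=
              mul_le_mul_of_nonneg_left (mul_le_mul_of_nonneg_right h2 (w.nonneg _)) hcard.le
          _ = ((Fintype.card Λ : ℝ) * K) * B * w (Φ l z) := by ring
          _ ≤ max 1 ((Fintype.card Λ : ℝ) * K) * B * w (Φ l z) :=
              mul_le_mul_of_nonneg_right (mul_le_mul_of_nonneg_right (le_max_right _ _) hB0)
                (w.nonneg _)
          _ < 1 := hcon l
      have hlt : ∑ l, w (MvPolynomial.eval z (c l) * Φ l z) < ∑ _l : Λ, 1 / (Fintype.card Λ : ℝ) :=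
        Finset.sum_lt_sum_of_nonempty Finset.univ_nonempty fun l _ => hterm l
      rw [Finset.sum_const, Finset.card_univ, nsmul_eq_mul, mul_one_div_cancel hcard.ne'] at hlt
      exact absurd (h1N.trans (w.sum_le _ _)) (not_le.2 hlt)

end Fermat.Agent.S17.HN
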