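import Fermat.Agent.S17.HN.ML

/-! # HN-MG1: heights of subspaces: basic facts and (HYP), global form -/

set_option autoImplicit false

namespace Fermat.Agent.S17.HN

variable (𝔥 : GHt)

theorem MG1_locC_one (w : AbsoluteValue Qb ℝ) : locC (1 : ℝ) (0 : Multiset Qb) w = 1 := by
  unfold locC
  simp

/-- exact monotonicity of the height (apply `transfer` to `n` copies). -/
theorem GHt.MG1_ht_le {ι κ : Type} [Finite ι] [Finite κ] (x : ι → Qb) (y : κ → Qb) (hx : x ≠ 0)
    (hy : y ≠ 0) (h : ∀ w : AbsoluteValue Qb ℝ, vnorm w x ≤ vnorm w y) : 𝔥.ht x ≤ 𝔥.ht y := by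
  obtain ⟨c, hc⟩ := 𝔥.transfer 1 0
  have key : ∀ n : ℕ, (n : ℝ) * 𝔥.ht x ≤ n * 𝔥.ht y + c := by
    intro n
    have := hc (List.replicate n { ι := ι, x := x, ne := hx }) (List.replicate n { ι := κ, x := y, ne := hy })
      (fun w => by
        simp only [List.map_replicate, List.prod_replicate, MG1_locC_one, one_mul]
        exact pow_le_pow_left₀ (vnorm_nonneg w x) (h w) n)
    simpa [List.map_replicate, List.sum_replicate, nsmul_eq_mul] using this
  by_contra hlt
  push Not at hlt
  have hpos : 0 < 𝔥.ht x - 𝔥.ht y := sub_pos.mpr hlt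
  obtain ⟨n, hn⟩ := exists_nat_gt (c / (𝔥.ht x - 𝔥.ht y))
  rw [div_lt_iff₀ hpos] at hn
  have := key n
  nlinarith

theorem GHt.MG1_ht_eq {ι κ : Type} [Finite ι] [Finite κ] (x : ι → Qb) (y : κ → Qb) (hx : x ≠ 0)
    (hy : y ≠ 0) (h : ∀ w : AbsoluteValue Qb ℝ, vnorm w x = vnorm w y) : 𝔥.ht x = 𝔥.ht y :=
  le_antisymm (𝔥.MG1_ht_le x y hx hy fun w => (h w).le) (𝔥.MG1_ht_le y x hy hx fun w => (h w).ge)

theorem MG1_bmat_li {d : ℕ} (W : Submodule Qb (Fin d → Qb)) :
    LinearIndependent Qb (fun i => bmat W i) :=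
  (Module.finBasis Qb W).linearIndependent.map' W.subtype (Submodule.ker_subtype W)

theorem MG1_rowSpan_bmat {d : ℕ} (W : Submodule Qb (Fin d → Qb)) : rowSpan (bmat W) = W := by
  unfold rowSpan
  have : (Set.range fun i => bmat W i) = W.subtype '' (Set.range (Module.finBasis Qb W)) := by
    rw [← Set.range_comp]
    rfl
  rw [this, Submodule.span_image, (Module.finBasis Qb W).span_eq, Submodule.map_top,
    Submodule.range_subtype]

theorem GHt.MG1_ht_minors_eq {r r' d : ℕ} (hr : r = r') (M : Matrix (Fin r) (Fin d) Qb)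
    (N : Matrix (Fin r') (Fin d) Qb) (hM : LinearIndependent Qb (fun i => M i))
    (hN : LinearIndependent Qb (fun i => N i)) (h : rowSpan M = rowSpan N) :
    𝔥.ht (minors M) = 𝔥.ht (minors N) := by
  subst hr
  obtain ⟨g, hg, rfl⟩ := exists_mul_of_rowSpan_eq M N hM hN h
  rw [minors_mul, 𝔥.smul _ _ hg]

/-- the height of a subspace can be computed with any basis -/
theorem GHt.hS_eq' {r d : ℕ} (M : Matrix (Fin r) (Fin d) Qb) (h : LinearIndependent Qb (fun i => M i)) :
    𝔥.hS (rowSpan M) = 𝔥.ht (minors M) := by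
  unfold GHt.hS
  refine 𝔥.MG1_ht_minors_eq ?_ _ _ (MG1_bmat_li _) h (MG1_rowSpan_bmat _)
  unfold rowSpan
  rw [finrank_span_eq_card h, Fintype.card_fin]

theorem GHt.hS_nonneg' {d : ℕ} (W : Submodule Qb (Fin d → Qb)) : 0 ≤ 𝔥.hS W :=
  𝔥.nonneg _

/-- height of a line -/
theorem GHt.hS_span_singleton' {d : ℕ} (x : Fin d → Qb) (hx : x ≠ 0) :
    𝔥.hS (Submodule.span Qb {x}) = 𝔥.ht x := by
  let M : Matrix (Fin 1) (Fin d) Qb := Matrix.of fun _ => x
  have hli : LinearIndependent Qb (fun i => M i) := LinearIndependent.of_subsingleton 0 hx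
  have hspan : rowSpan M = Submodule.span Qb {x} := by
    change Submodule.span Qb (Set.range fun _ : Fin 1 => x) = _
    rw [Set.range_const]
  have hmin : minors M = fun s => x (s 0) := by
    funext s
    simp [minors, M]
  rw [← hspan, 𝔥.hS_eq' M hli, hmin]
  have hne : (fun s : Fin 1 → Fin d => x (s 0)) ≠ 0 := by
    intro h0
    apply hx
    funext i
    exact congrFun h0 (fun _ => i)
  refine 𝔥.MG1_ht_eq _ _ hne hx fun w => ?_
  unfold vnorm
  exact (Equiv.funUnique (Fin 1) (Fin d)).iSup_congr (fun s => rfl)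

/-- the minors of the identity matrix over `ℤ`. -/
theorem MG1_minor_one_abs_le (d : ℕ) (s : Fin d → Fin d) :
    |((1 : Matrix (Fin d) (Fin d) ℤ).submatrix id s).det| ≤ 1 := by
  by_cases hs : Function.Injective s
  · have hb : Function.Bijective s := Finite.injective_iff_bijective.mp hs
    have h := Matrix.det_permute' (Equiv.ofBijective s hb) (1 : Matrix (Fin d) (Fin d) ℤ)
    have h' : ((1 : Matrix (Fin d) (Fin d) ℤ).submatrix id s).det =
        Equiv.Perm.sign (Equiv.ofBijective s hb) * (1 : Matrix (Fin d) (Fin d) ℤ).det := h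
    rw [h', Matrix.det_one, mul_one]
    rcases Int.units_eq_one_or (Equiv.Perm.sign (Equiv.ofBijective s hb)) with h1 | h1 <;> simp [h1]
  · rw [Function.Injective] at hs
    push Not at hs
    obtain ⟨i, j, hij, hne⟩ := hs
    rw [Matrix.det_zero_of_column_eq hne (fun k => by rw [Matrix.submatrix_apply, Matrix.submatrix_apply, hij])]
    simp

theorem GHt.hS_top' (d : ℕ) : 𝔥.hS (⊤ : Submodule Qb (Fin d → Qb)) = 0 := by
  have hli : LinearIndependent Qb (fun i => (1 : Matrix (Fin d) (Fin d) Qb) i) := by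
    have := (Pi.basisFun Qb (Fin d)).linearIndependent
    convert this using 1
    funext i j
    simp [Matrix.one_apply, Pi.single_apply, eq_comm]
  have hspan : rowSpan (1 : Matrix (Fin d) (Fin d) Qb) = ⊤ := by
    have := (Pi.basisFun Qb (Fin d)).span_eq
    unfold rowSpan
    convert this using 3
    funext i j
    simp [Matrix.one_apply, Pi.single_apply, eq_comm]
  rw [← hspan, 𝔥.hS_eq' _ hli]
  let x : (Fin d → Fin d) → ℤ := fun s => ((1 : Matrix (Fin d) (Fin d) ℤ).submatrix id s).det
  have hx : minors (1 : Matrix (Fin d) (Fin d) Qb) = fun s => ((x s : ℤ) : Qb) := by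
    funext s
    simp only [minors, x]
    rw [Int.cast_det]
    congr 1
    ext i j
    simp [Matrix.one_apply]
  have hid : x id = 1 := by simp [x]
  have hgcd : Finset.univ.gcd x = 1 := by
    have h : Finset.univ.gcd x ∣ x id := Finset.gcd_dvd (Finset.mem_univ _)
    rw [hid] at h
    rw [← Finset.normalize_gcd]
    exact normalize_eq_one.mpr (isUnit_of_dvd_one h)
  rw [hx, 𝔥.prim x hgcd]
  have hsup : (⨆ s, |(x s : ℝ)|) = 1 := by
    have : Nonempty (Fin d → Fin d) := ⟨id⟩
    apply le_antisymm
    · apply ciSup_le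
      intro s
      have := MG1_minor_one_abs_le d s
      have h2 : |(x s : ℝ)| = ((|x s| : ℤ) : ℝ) := by push_cast; rfl
      rw [h2]
      exact_mod_cast this
    · have hbdd : BddAbove (Set.range fun s => |(x s : ℝ)|) := Set.finite_range _ |>.bddAbove
      have := le_ciSup hbdd id
      simpa [hid] using this
  rw [hsup, Real.log_one]

/-- **(HYP), global.** height of a hyperplane = height of its equation. -/
theorem HYP_global' (d : ℕ) : ∃ C : ℝ, ∀ φ : Fin d → Qb, φ ≠ 0 →
    |𝔥.hS (LinearMap.ker (Fintype.linearCombination Qb φ : (Fin d → Qb) →ₗ[Qb] Qb)) - 𝔥.ht φ| ≤ C := by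
  cases d with
  | zero => exact ⟨0, fun φ hφ => absurd (Subsingleton.elim φ 0) hφ⟩
  | succ d =>
    obtain ⟨c, hc⟩ := 𝔥.transfer ((d : ℝ) + 1) 0
    refine ⟨c, fun φ hφ => ?_⟩
    obtain ⟨f, hfdef⟩ : ∃ f : (Fin (d + 1) → Qb) →ₗ[Qb] Qb, f = Fintype.linearCombination Qb φ :=
      ⟨_, rfl⟩
    rw [← hfdef]
    have hf : ∀ v, f v = ∑ j, φ j * v j := by
      intro v
      rw [hfdef, Fintype.linearCombination_apply]
      exact Finset.sum_congr rfl fun j _ => by rw [smul_eq_mul, mul_comm]
    obtain ⟨i₀, hi₀⟩ : ∃ i, φ i ≠ 0 := Function.ne_iff.mp hφ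
    have hi₀' : φ i₀ ≠ 0 := hi₀
    obtain ⟨v₀, hv₀⟩ : ∃ v₀, f v₀ = 1 := by
      refine ⟨Pi.single i₀ (φ i₀)⁻¹, ?_⟩
      rw [hf, Finset.sum_eq_single i₀]
      · rw [Pi.single_eq_same, mul_inv_cancel₀ hi₀']
      · intro j _ hj
        rw [Pi.single_eq_of_ne hj, mul_zero]
      · intro h
        exact absurd (Finset.mem_univ _) h
    have hsurj : Function.Surjective f := fun a =>
      ⟨a • v₀, by rw [map_smul, hv₀, smul_eq_mul, mul_one]⟩
    have hker : Module.finrank Qb (LinearMap.ker f) = d := by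
      have := LinearMap.finrank_range_add_finrank_ker f
      rw [LinearMap.range_eq_top.mpr hsurj, finrank_top, Module.finrank_self,
        Module.finrank_fin_fun] at this
      omega
    let b := Module.finBasisOfFinrankEq Qb (LinearMap.ker f) hker
    let N : Matrix (Fin d) (Fin (d + 1)) Qb :=
      Matrix.of fun i => ((b i : LinearMap.ker f) : Fin (d + 1) → Qb)
    let B : Matrix (Fin (d + 1)) (Fin (d + 1)) Qb :=
      Matrix.of (Fin.cons v₀ fun i => ((b i : LinearMap.ker f) : Fin (d + 1) → Qb))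
    have htl : tl B = N := by
      ext i j
      simp [tl, B, N]
    have hliN : LinearIndependent Qb (fun i => N i) :=
      b.linearIndependent.map' (LinearMap.ker f).subtype (Submodule.ker_subtype _)
    have hspanN : rowSpan N = LinearMap.ker f := by
      unfold rowSpan
      have : (Set.range fun i => N i) = (LinearMap.ker f).subtype '' (Set.range b) := by
        rw [← Set.range_comp]
        rfl
      rw [this, Submodule.span_image, b.span_eq, Submodule.map_top, Submodule.range_subtype]
    have hliB : LinearIndependent Qb B.row := by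
      change LinearIndependent Qb (Fin.cons v₀ fun i => N i)
      rw [linearIndependent_finCons]
      refine ⟨hliN, fun hmem => ?_⟩
      have h1 : v₀ ∈ rowSpan N := hmem
      rw [hspanN, LinearMap.mem_ker, hv₀] at h1
      exact one_ne_zero h1
    have hdet : B.det ≠ 0 :=
      ((Matrix.isUnit_iff_isUnit_det B).mp (Matrix.linearIndependent_rows_iff_isUnit.mp hliB)).ne_zero
    have h0 : ∑ j, φ j * B 0 j = 1 := by
      rw [← hv₀, hf]
      rfl
    have hs : ∀ i : Fin d, ∑ j, φ j * B i.succ j = 0 := by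
      intro i
      have h1 : f ((b i : LinearMap.ker f) : Fin (d + 1) → Qb) = 0 := (b i).2
      rw [hf] at h1
      rw [← h1]
      rfl
    have hloc := fun w : AbsoluteValue Qb ℝ => HYP_local w φ B hdet h0 hs
    have hminne : minors N ≠ 0 := by
      obtain ⟨s, hs⟩ := exists_minor_ne_zero N hliN
      exact fun h => hs (congrFun h s)
    have hφne : B.det • φ ≠ 0 := smul_ne_zero hdet hφ
    have e1 := hc [{ ι := _, x := minors N, ne := hminne }] [{ ι := _, x := B.det • φ, ne := hφne }]
      (fun w => by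
        simp only [List.map_cons, List.map_nil, List.prod_cons, List.prod_nil, mul_one]
        rw [vnorm_smul]
        have := (hloc w).1
        rw [htl] at this
        exact_mod_cast this)
    have e2 := hc [{ ι := _, x := B.det • φ, ne := hφne }] [{ ι := _, x := minors N, ne := hminne }]
      (fun w => by
        simp only [List.map_cons, List.map_nil, List.prod_cons, List.prod_nil, mul_one]
        rw [vnorm_smul]
        have := (hloc w).2
        rw [htl] at this
        exact_mod_cast this)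
    simp only [List.map_cons, List.map_nil, List.sum_cons, List.sum_nil, add_zero,
      𝔥.smul _ _ hdet] at e1 e2
    rw [← hspanN, 𝔥.hS_eq' N hliN, abs_le]
    constructor <;> linarith

end Fermat.Agent.S17.HN
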