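import Fermat.Agent.S17.HN.ML

/-! # HN-MG2: (MULT), (M1), global form — proofs (relative to `hS_eq`, passed as a hypothesis) -/

set_option autoImplicit false

namespace Fermat.Agent.S17.HN

namespace MG2

section LinAlg

variable {K : Type} [Field K]

/-- a basis matrix of a subspace of given dimension -/
theorem exists_basis_matrix {d r : ℕ} (W : Submodule K (Fin d → K)) (h : Module.finrank K W = r) :
    ∃ B : Matrix (Fin r) (Fin d) K, LinearIndependent K (fun i => B i) ∧ rowSpan B = W := by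
  subst h
  let b := Module.finBasis K W
  refine ⟨Matrix.of fun i => ((b i : W) : Fin d → K), ?_, ?_⟩
  · have := b.linearIndependent.map' W.subtype (Submodule.ker_subtype W)
    exact this
  · have h1 : Submodule.span K (Set.range b) = ⊤ := b.span_eq
    have h2 : (Submodule.span K (Set.range b)).map W.subtype = W := by
      rw [h1, Submodule.map_subtype_top]
    rw [Submodule.map_span, ← Set.range_comp] at h2
    exact h2

theorem span_sup_eq {d : ℕ} {W W' : Submodule K (Fin d → K)} (hle : W' ≤ W)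
    (hr : Module.finrank K W = Module.finrank K W' + 1) {u : Fin d → K} (hu : u ∈ W) (hu' : u ∉ W') :
    Submodule.span K {u} ⊔ W' = W := by
  apply Submodule.eq_of_le_of_finrank_le
  · exact sup_le ((Submodule.span_singleton_le_iff_mem _ _).2 hu) hle
  · have hlt : W' < Submodule.span K {u} ⊔ W' := by
      refine lt_of_le_of_ne le_sup_right ?_
      intro h
      apply hu'
      rw [h]
      exact Submodule.mem_sup_left (Submodule.mem_span_singleton_self u)
    have := Submodule.finrank_lt_finrank_of_lt hlt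
    omega

theorem exists_not_mem {d : ℕ} {W W' : Submodule K (Fin d → K)}
    (hr : Module.finrank K W' < Module.finrank K W) : ∃ u ∈ W, u ∉ W' := by
  by_contra hcon
  push Not at hcon
  have : W ≤ W' := fun u hu => hcon u hu
  have := Submodule.finrank_mono this
  omega

/-- a basis matrix adapted to a hyperplane, with prescribed first row -/
theorem exists_adapted {d r : ℕ} {W W' : Submodule K (Fin d → K)} (hle : W' ≤ W)
    (hr' : Module.finrank K W' = r) (hr : Module.finrank K W = r + 1)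
    {u : Fin d → K} (hu : u ∈ W) (hu' : u ∉ W') :
    ∃ B : Matrix (Fin (r + 1)) (Fin d) K, LinearIndependent K (fun i => B i) ∧
      LinearIndependent K (fun i => tl B i) ∧ rowSpan B = W ∧ rowSpan (tl B) = W' ∧ B 0 = u := by
  obtain ⟨B', hli, hsp⟩ := exists_basis_matrix W' hr'
  have htl : tl (Matrix.of (Fin.cons u (fun i => B' i) : Fin (r + 1) → Fin d → K)) = B' := by
    ext i j
    simp [tl]
  refine ⟨Matrix.of (Fin.cons u (fun i => B' i)), ?_, ?_, ?_, ?_, ?_⟩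
  · have : LinearIndependent K (Fin.cons u (fun i => B' i) : Fin (r + 1) → Fin d → K) := by
      rw [linearIndependent_finCons]
      refine ⟨hli, ?_⟩
      intro h
      apply hu'
      rw [← hsp]
      exact h
    exact this
  · rw [htl]; exact hli
  · have h1 : rowSpan (Matrix.of (Fin.cons u (fun i => B' i) : Fin (r + 1) → Fin d → K))
        = Submodule.span K {u} ⊔ W' := by
      rw [← hsp]
      unfold rowSpan
      rw [← Submodule.span_union]
      congr 1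
      ext x
      simp only [Set.mem_range, Set.singleton_union, Set.mem_insert_iff]
      constructor
      · rintro ⟨i, rfl⟩
        refine Fin.cases ?_ (fun j => ?_) i
        · left; rfl
        · right; exact ⟨j, rfl⟩
      · rintro (rfl | ⟨j, rfl⟩)
        · exact ⟨0, rfl⟩
        · exact ⟨j.succ, rfl⟩
    rw [h1]
    exact span_sup_eq hle (by omega) hu hu'
  · rw [htl]; exact hsp
  · rfl

theorem minors_ne_zero {r d : ℕ} (M : Matrix (Fin r) (Fin d) K)
    (h : LinearIndependent K (fun i => M i)) : minors M ≠ 0 := by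
  obtain ⟨s, hs⟩ := exists_minor_ne_zero M h
  intro h0
  apply hs
  rw [h0]
  rfl

/-- the product of the two "new" vectors is not in `W₃'` -/
theorem mul_not_mem {d₁ d₂ d₃ : ℕ} (μ : (Fin d₁ → K) →ₗ[K] (Fin d₂ → K) →ₗ[K] (Fin d₃ → K))
    {W₁ W₁' : Submodule K (Fin d₁ → K)} {W₂ W₂' : Submodule K (Fin d₂ → K)}
    {W₃' : Submodule K (Fin d₃ → K)} {u₁ : Fin d₁ → K} {u₂ : Fin d₂ → K}
    (h₁ : Submodule.span K {u₁} ⊔ W₁' = W₁) (h₂ : Submodule.span K {u₂} ⊔ W₂' = W₂)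
    (hl : Submodule.map₂ μ W₁' W₂ ≤ W₃') (hr : Submodule.map₂ μ W₁ W₂' ≤ W₃')
    (hlt : Module.finrank K W₃' < Module.finrank K (Submodule.map₂ μ W₁ W₂)) :
    μ u₁ u₂ ∉ W₃' := by
  intro hmem
  have hle : Submodule.map₂ μ W₁ W₂ ≤ W₃' := by
    conv_lhs => rw [← h₁]
    rw [Submodule.map₂_sup_left]
    refine sup_le ?_ hl
    conv_lhs => rw [← h₂]
    rw [Submodule.map₂_sup_right]
    refine sup_le ?_ ?_
    · rw [Submodule.map₂_span_span, Set.image2_singleton]
      exact (Submodule.span_singleton_le_iff_mem _ _).2 hmem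
    · refine le_trans (Submodule.map₂_le_map₂_left ?_) hr
      rw [← h₁]
      exact le_sup_left
  have := Submodule.finrank_mono hle
  omega

end LinAlg

variable (𝔥 : GHt)

/-- **(MULT), global**, relative to `hS_eq`. -/
theorem MULT_global_aux
    (hSeq : ∀ {r d : ℕ} (M : Matrix (Fin r) (Fin d) Qb), LinearIndependent Qb (fun i => M i) →
      𝔥.hS (rowSpan M) = 𝔥.ht (minors M))
    {d₁ d₂ d₃ r s t : ℕ}
    (μ : (Fin d₁ → Qb) →ₗ[Qb] (Fin d₂ → Qb) →ₗ[Qb] (Fin d₃ → Qb))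
    (𝒵₁ : Set (Submodule Qb (Fin d₁ → Qb))) (𝒵₂ : Set (Submodule Qb (Fin d₂ → Qb)))
    (h₁ : IsClosedFam (r + 1) d₁ 𝒵₁) (h₂ : IsClosedFam (s + 1) d₂ 𝒵₂)
    (hrank : ∀ W₁ ∈ 𝒵₁, ∀ W₂ ∈ 𝒵₂, Module.finrank Qb (Submodule.map₂ μ W₁ W₂) = t + 1) :
    ∃ C : ℝ, ∀ W₁ ∈ 𝒵₁, ∀ W₂ ∈ 𝒵₂, ∀ (W₁' : Submodule Qb (Fin d₁ → Qb))
      (W₂' : Submodule Qb (Fin d₂ → Qb)) (W₃' : Submodule Qb (Fin d₃ → Qb)),
      W₁' ≤ W₁ → Module.finrank Qb W₁' = r → W₂' ≤ W₂ → Module.finrank Qb W₂' = s →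
      W₃' ≤ Submodule.map₂ μ W₁ W₂ → Module.finrank Qb W₃' = t →
      Submodule.map₂ μ W₁' W₂ ≤ W₃' → Submodule.map₂ μ W₁ W₂' ≤ W₃' →
      |(𝔥.hS W₃' - 𝔥.hS (Submodule.map₂ μ W₁ W₂)) - (𝔥.hS W₁' - 𝔥.hS W₁) - (𝔥.hS W₂' - 𝔥.hS W₂)| ≤ C := by
  obtain ⟨M, S, -, hloc⟩ := MULT_local μ 𝒵₁ 𝒵₂ h₁ h₂ hrank
  obtain ⟨c, hc⟩ := 𝔥.transfer M S
  refine ⟨c, ?_⟩
  intro W₁ hW₁ W₂ hW₂ W₁' W₂' W₃' hle₁ hr₁ hle₂ hr₂ hle₃ hr₃ hl hr
  have hf₁ : Module.finrank Qb W₁ = r + 1 := h₁.1 W₁ hW₁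
  have hf₂ : Module.finrank Qb W₂ = s + 1 := h₂.1 W₂ hW₂
  have hf₃ : Module.finrank Qb (Submodule.map₂ μ W₁ W₂) = t + 1 := hrank W₁ hW₁ W₂ hW₂
  obtain ⟨u₁, hu₁, hu₁'⟩ := exists_not_mem (W := W₁) (W' := W₁') (by omega)
  obtain ⟨u₂, hu₂, hu₂'⟩ := exists_not_mem (W := W₂) (W' := W₂') (by omega)
  have hs₁ := span_sup_eq hle₁ (by omega) hu₁ hu₁'
  have hs₂ := span_sup_eq hle₂ (by omega) hu₂ hu₂'
  have hu₃' : μ u₁ u₂ ∉ W₃' := mul_not_mem μ hs₁ hs₂ hl hr (by omega)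
  have hu₃ : μ u₁ u₂ ∈ Submodule.map₂ μ W₁ W₂ := Submodule.apply_mem_map₂ μ hu₁ hu₂
  obtain ⟨B₁, li₁, li₁', sp₁, sp₁', z₁⟩ := exists_adapted hle₁ hr₁ hf₁ hu₁ hu₁'
  obtain ⟨B₂, li₂, li₂', sp₂, sp₂', z₂⟩ := exists_adapted hle₂ hr₂ hf₂ hu₂ hu₂'
  obtain ⟨B₃, li₃, li₃', sp₃, sp₃', z₃⟩ := exists_adapted hle₃ hr₃ hf₃ hu₃ hu₃'
  have cfg : MultCfg μ B₁ B₂ B₃ :=
    { li₁ := li₁
      li₂ := li₂
      li₃ := li₃
      span₃ := by rw [sp₁, sp₂, sp₃]
      zero₃ := by rw [z₁, z₂, z₃]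
      left := by rw [sp₁', sp₂, sp₃']; exact hl
      right := by rw [sp₁, sp₂', sp₃']; exact hr }
  have hloc' := fun w => hloc w B₁ B₂ B₃ cfg (by rw [sp₁]; exact hW₁) (by rw [sp₂]; exact hW₂)
  let X₁ : FVec := { ι := _, x := minors B₁, ne := minors_ne_zero B₁ li₁ }
  let X₂ : FVec := { ι := _, x := minors B₂, ne := minors_ne_zero B₂ li₂ }
  let X₃ : FVec := { ι := _, x := minors B₃, ne := minors_ne_zero B₃ li₃ }
  let X₁' : FVec := { ι := _, x := minors (tl B₁), ne := minors_ne_zero _ li₁' }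
  let X₂' : FVec := { ι := _, x := minors (tl B₂), ne := minors_ne_zero _ li₂' }
  let X₃' : FVec := { ι := _, x := minors (tl B₃), ne := minors_ne_zero _ li₃' }
  have key1 := hc [X₃', X₁, X₂] [X₃, X₁', X₂'] (by
    intro w
    have := (hloc' w).1
    simpa [msize, X₁, X₂, X₃, X₁', X₂', X₃'] using this)
  have key2 := hc [X₃, X₁', X₂'] [X₃', X₁, X₂] (by
    intro w
    have := (hloc' w).2
    simpa [msize, X₁, X₂, X₃, X₁', X₂', X₃'] using this)
  simp only [List.map_cons, List.map_nil, List.sum_cons, List.sum_nil, add_zero,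
    X₁, X₂, X₃, X₁', X₂', X₃'] at key1 key2
  rw [← sp₃', ← sp₃, ← sp₁', ← sp₂']
  conv_lhs => rw [← sp₁, ← sp₂]
  rw [hSeq _ li₁, hSeq _ li₂, hSeq _ li₃, hSeq _ li₁', hSeq _ li₂', hSeq _ li₃']
  rw [abs_le]
  constructor <;> linarith

/-- **(M1), global**, relative to `hS_eq`. -/
theorem M1_global_aux
    (hSeq : ∀ {r d : ℕ} (M : Matrix (Fin r) (Fin d) Qb), LinearIndependent Qb (fun i => M i) →
      𝔥.hS (rowSpan M) = 𝔥.ht (minors M))
    {d₁ d₂ d₃ : ℕ}
    (μ : (Fin d₁ → Qb) →ₗ[Qb] (Fin d₂ → Qb) →ₗ[Qb] (Fin d₃ → Qb))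
    (hμ : ∀ x y, μ x y = 0 → x = 0 ∨ y = 0) :
    ∃ C : ℝ, ∀ (c : Fin d₁ → Qb) (W : Submodule Qb (Fin d₂ → Qb)), c ≠ 0 →
      |𝔥.hS (W.map (μ c)) - 𝔥.hS W - (Module.finrank Qb W : ℝ) * 𝔥.ht c| ≤ C := by
  have hex : ∀ r : ℕ, ∃ C : ℝ, ∀ (c : Fin d₁ → Qb) (W : Submodule Qb (Fin d₂ → Qb)), c ≠ 0 →
      Module.finrank Qb W = r →
      |𝔥.hS (W.map (μ c)) - 𝔥.hS W - (Module.finrank Qb W : ℝ) * 𝔥.ht c| ≤ C := by
    intro r
    obtain ⟨M, S, -, hloc⟩ := M1_local r μ hμ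
    obtain ⟨C, hC⟩ := 𝔥.transfer M S
    refine ⟨C, ?_⟩
    intro c W hc hr
    obtain ⟨B, li, sp⟩ := exists_basis_matrix W hr
    have hker : LinearMap.ker (μ c) = ⊥ := by
      rw [LinearMap.ker_eq_bot']
      intro y hy
      exact (hμ c y hy).resolve_left hc
    have li' : LinearIndependent Qb (fun i => (Matrix.of fun a => μ c (B a)) i) :=
      li.map' (μ c) hker
    have sp' : rowSpan (Matrix.of fun a => μ c (B a)) = W.map (μ c) := by
      rw [← sp]
      unfold rowSpan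
      rw [Submodule.map_span, ← Set.range_comp]
      rfl
    let X : FVec := { ι := _, x := minors B, ne := minors_ne_zero B li }
    let X' : FVec := { ι := _, x := minors (Matrix.of fun a => μ c (B a)), ne := minors_ne_zero _ li' }
    let Y : FVec := { ι := _, x := c, ne := hc }
    have key1 := hC [X'] (List.replicate r Y ++ [X]) (by
      intro w
      have := (hloc w c B hc li).1
      simpa [msize, X, X', Y] using this)
    have key2 := hC (List.replicate r Y ++ [X]) [X'] (by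
      intro w
      have := (hloc w c B hc li).2
      simpa [msize, X, X', Y] using this)
    simp only [List.map_cons, List.map_nil, List.sum_cons, List.sum_nil, add_zero, List.map_append,
      List.map_replicate, List.sum_append, List.sum_replicate, nsmul_eq_mul, X, X', Y] at key1 key2
    rw [hr, ← sp', hSeq _ li']
    conv_lhs => rw [← sp]
    rw [hSeq _ li, abs_le]
    constructor <;> linarith
  choose C hC using hex
  refine ⟨∑ r ∈ Finset.range (d₂ + 1), |C r|, ?_⟩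
  intro c W hc
  have hle : Module.finrank Qb W ≤ d₂ := by
    have := Submodule.finrank_le W
    simpa using this
  refine (hC _ c W hc rfl).trans ((le_abs_self _).trans ?_)
  exact Finset.single_le_sum (f := fun r => |C r|) (fun i _ => abs_nonneg _)
    (Finset.mem_range.2 (by omega))

end MG2

end Fermat.Agent.S17.HN
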