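import Fermat.Agent.S17.HN.ML
import Fermat.Agent.S17.HN.MG2
import Fermat.Agent.S17.HN.MG1

/-! # HN-MG: (MULT), (M1), (HYP), global form (heights of subspaces of `Qb^d`) -/

set_option autoImplicit false

namespace Fermat.Agent.S17.HN

variable (𝔥 : GHt)

/-- the height of a subspace can be computed with any basis -/
theorem GHt.hS_eq {r d : ℕ} (M : Matrix (Fin r) (Fin d) Qb) (h : LinearIndependent Qb (fun i => M i)) :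
    𝔥.hS (rowSpan M) = 𝔥.ht (minors M) :=
  𝔥.hS_eq' M h

theorem GHt.hS_top (d : ℕ) : 𝔥.hS (⊤ : Submodule Qb (Fin d → Qb)) = 0 :=
  𝔥.hS_top' d

theorem GHt.hS_nonneg {d : ℕ} (W : Submodule Qb (Fin d → Qb)) : 0 ≤ 𝔥.hS W :=
  𝔥.hS_nonneg' W

/-- height of a line -/
theorem GHt.hS_span_singleton {d : ℕ} (x : Fin d → Qb) (hx : x ≠ 0) :
    𝔥.hS (Submodule.span Qb {x}) = 𝔥.ht x :=
  𝔥.hS_span_singleton' x hx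

/-- **(MULT), global.** -/
theorem MULT_global {d₁ d₂ d₃ r s t : ℕ}
    (μ : (Fin d₁ → Qb) →ₗ[Qb] (Fin d₂ → Qb) →ₗ[Qb] (Fin d₃ → Qb))
    (𝒵₁ : Set (Submodule Qb (Fin d₁ → Qb))) (𝒵₂ : Set (Submodule Qb (Fin d₂ → Qb)))
    (h₁ : IsClosedFam (r + 1) d₁ 𝒵₁) (h₂ : IsClosedFam (s + 1) d₂ 𝒵₂)
    (hrank : ∀ W₁ ∈ 𝒵₁, ∀ W₂ ∈ 𝒵₂, Module.finrank Qb (Submodule.map₂ μ W₁ W₂) = t + 1) :
    ∃ C : ℝ, ∀ W₁ ∈ 𝒵₁, ∀ W₂ ∈ 𝒵₂, ∀ (W₁' : Submodule Qb (Fin d₁ → Qb))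
      (W₂' : Submodule Qb (Fin d₂ → Qb)) (W₃' : Submodule Qb (Fin d₃ → Qb)),
      W₁' ≤ W₁ → Module.finrank Qb W₁' = r → W₂' ≤ W₂ → Module.finrank Qb W₂' = s →
      W₃' ≤ Submodule.map₂ μ W₁ W₂ → Module.finrank Qb W₃' = t →
      Submodule.map₂ μ W₁' W₂ ≤ W₃' → Submodule.map₂ μ W₁ W₂' ≤ W₃' →
      |(𝔥.hS W₃' - 𝔥.hS (Submodule.map₂ μ W₁ W₂)) - (𝔥.hS W₁' - 𝔥.hS W₁) - (𝔥.hS W₂' - 𝔥.hS W₂)| ≤ C :=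
  MG2.MULT_global_aux 𝔥 (fun M h => 𝔥.hS_eq M h) μ 𝒵₁ 𝒵₂ h₁ h₂ hrank

/-- **(M1), global.** -/
theorem M1_global {d₁ d₂ d₃ : ℕ}
    (μ : (Fin d₁ → Qb) →ₗ[Qb] (Fin d₂ → Qb) →ₗ[Qb] (Fin d₃ → Qb))
    (hμ : ∀ x y, μ x y = 0 → x = 0 ∨ y = 0) :
    ∃ C : ℝ, ∀ (c : Fin d₁ → Qb) (W : Submodule Qb (Fin d₂ → Qb)), c ≠ 0 →
      |𝔥.hS (W.map (μ c)) - 𝔥.hS W - (Module.finrank Qb W : ℝ) * 𝔥.ht c| ≤ C :=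
  MG2.M1_global_aux 𝔥 (fun M h => 𝔥.hS_eq M h) μ hμ

/-- **(HYP), global.** height of a hyperplane = height of its equation. -/
theorem HYP_global (d : ℕ) : ∃ C : ℝ, ∀ φ : Fin d → Qb, φ ≠ 0 →
    |𝔥.hS (LinearMap.ker (Fintype.linearCombination Qb φ : (Fin d → Qb) →ₗ[Qb] Qb)) - 𝔥.ht φ| ≤ C :=
  HYP_global' 𝔥 d

end Fermat.Agent.S17.HN
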