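import Fermat.Agent.S17.HN.NS
import Fermat.Agent.S17.HN.LA

/-! # HN-US: uniform surjectivity of a bilinear multiplication on closed families of subspaces -/

set_option autoImplicit false

namespace Fermat.Agent.S17.HN

variable {K : Type} [Field K]

/-! ## the constants `locC` -/

theorem US_one_le_prod (S : Multiset K) (w : AbsoluteValue K ℝ) :
    1 ≤ (S.map fun s => max 1 (w s)).prod := by
  induction S using Multiset.induction_on with
  | empty => simp
  | cons a S ih =>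
    rw [Multiset.map_cons, Multiset.prod_cons]
    exact one_le_mul_of_one_le_of_one_le (le_max_left _ _) ih

theorem US_le_prod (S : Multiset K) (w : AbsoluteValue K ℝ) {a : K} (ha : a ∈ S) :
    w a ≤ (S.map fun s => max 1 (w s)).prod := by
  induction S using Multiset.induction_on with
  | empty => simp at ha
  | cons b S ih =>
    rw [Multiset.map_cons, Multiset.prod_cons]
    rcases Multiset.mem_cons.1 ha with rfl | h
    · calc w a ≤ max 1 (w a) := le_max_right _ _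
        _ = max 1 (w a) * 1 := (mul_one _).symm
        _ ≤ _ := mul_le_mul_of_nonneg_left (US_one_le_prod S w)
            (le_trans zero_le_one (le_max_left _ _))
    · calc w a ≤ (S.map fun s => max 1 (w s)).prod := ih h
        _ = 1 * (S.map fun s => max 1 (w s)).prod := (one_mul _).symm
        _ ≤ _ := mul_le_mul_of_nonneg_right (le_max_left _ _)
            (le_trans zero_le_one (US_one_le_prod S w))

theorem US_locC_mul (M M' : ℝ) (S S' : Multiset K) (w : AbsoluteValue K ℝ) :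
    locC (M * M') (S + S') w = locC M S w * locC M' S' w := by
  unfold locC
  rw [Multiset.map_add, Multiset.prod_add]
  split_ifs <;> ring

theorem US_one_le_locC {M : ℝ} (hM : 1 ≤ M) (S : Multiset K) (w : AbsoluteValue K ℝ) :
    1 ≤ locC M S w := by
  unfold locC
  refine one_le_mul_of_one_le_of_one_le ?_ (US_one_le_prod S w)
  split_ifs
  · exact le_rfl
  · exact hM

theorem US_locC_one_zero (w : AbsoluteValue K ℝ) : locC 1 (0 : Multiset K) w = 1 := by
  unfold locC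
  simp

theorem US_locC_pow (M : ℝ) (S : Multiset K) (w : AbsoluteValue K ℝ) (n : ℕ) :
    locC (M ^ n) (n • S) w = locC M S w ^ n := by
  induction n with
  | zero => simp [US_locC_one_zero]
  | succ n ih => rw [pow_succ, succ_nsmul, US_locC_mul, ih, pow_succ]

theorem US_locC_mono {M M' : ℝ} (h : M ≤ M') (S : Multiset K) (w : AbsoluteValue K ℝ) :
    locC M S w ≤ locC M' S w := by
  unfold locC
  refine mul_le_mul_of_nonneg_right ?_ (le_trans zero_le_one (US_one_le_prod S w))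
  split_ifs
  · exact le_rfl
  · exact h

theorem US_le_locC {M : ℝ} (hM : 1 ≤ M) (S : Multiset K) (w : AbsoluteValue K ℝ) {a : K}
    (ha : a ∈ S) : w a ≤ locC M S w := by
  unfold locC
  calc w a ≤ (S.map fun s => max 1 (w s)).prod := US_le_prod S w ha
    _ = 1 * (S.map fun s => max 1 (w s)).prod := (one_mul _).symm
    _ ≤ _ := mul_le_mul_of_nonneg_right (by split_ifs; exacts [le_rfl, hM])
        (le_trans zero_le_one (US_one_le_prod S w))

/-- finitely many constants are dominated by one -/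
theorem US_exists_locC {X : Type} [Finite X] (Mf : X → ℝ) (Sf : X → Multiset K)
    (hM : ∀ x, 1 ≤ Mf x) :
    ∃ (M : ℝ) (S : Multiset K), 1 ≤ M ∧ ∀ x w, locC (Mf x) (Sf x) w ≤ locC M S w := by
  classical
  cases nonempty_fintype X
  have key : ∀ s : Finset X, ∃ (M : ℝ) (S : Multiset K), 1 ≤ M ∧
      ∀ x ∈ s, ∀ w, locC (Mf x) (Sf x) w ≤ locC M S w := by
    intro s
    induction s using Finset.induction_on with
    | empty => exact ⟨1, 0, le_rfl, fun x hx => by simp at hx⟩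
    | insert a s _ ih =>
      obtain ⟨M, S, hM1, h⟩ := ih
      refine ⟨Mf a * M, Sf a + S, one_le_mul_of_one_le_of_one_le (hM a) hM1, fun x hx w => ?_⟩
      rw [US_locC_mul]
      have h1 := US_one_le_locC (hM a) (Sf a) w
      have h2 := US_one_le_locC hM1 S w
      rcases Finset.mem_insert.1 hx with rfl | hx
      · exact le_mul_of_one_le_right (le_trans zero_le_one h1) h2
      · exact (h x hx w).trans (le_mul_of_one_le_left (le_trans zero_le_one h2) h1)
  obtain ⟨M, S, hM1, h⟩ := key Finset.univ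
  exact ⟨M, S, hM1, fun x w => h x (Finset.mem_univ x) w⟩

/-- **(URL)** uniform rank lemma = `NS` for the minors of a matrix of polynomial functions. -/
theorem URL [IsAlgClosed K] {ι : Type} [Finite ι] {γ ρ κ : Type} [Fintype ρ] [Fintype κ]
    (G : γ → (ι → K) → K) (hG : ∀ j, IsPolyFun (G j))
    (T : (ι → K) → Matrix ρ κ K) (hT : ∀ a b, IsPolyFun (fun z => T z a b))
    (u : (ι → K) → K) (hu : IsPolyFun u) (t : ℕ)
    (h : ∀ z, (∀ j, G j z = 0) → u z ≠ 0 → t ≤ (T z).rank) :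
    ∃ (M : ℝ) (S : Multiset K), 1 ≤ M ∧ ∀ (w : AbsoluteValue K ℝ) (z : ι → K),
      (∀ i, w (z i) ≤ 1) → (∀ j, G j z = 0) → 1 ≤ w (u z) →
      ∃ (a : Fin t → ρ) (b : Fin t → κ), 1 ≤ locC M S w * w ((T z).submatrix a b).det := by
  obtain ⟨M, S, hM, hNS⟩ := NS (Λ := (Fin t → ρ) × (Fin t → κ)) G hG
    (fun l z => ((T z).submatrix l.1 l.2).det)
    (fun l => IsPolyFun.det (A := fun z => (T z).submatrix l.1 l.2) (fun a b => hT _ _)) u hu
    (fun z hz hΦ => by
      by_contra hu0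
      obtain ⟨a, b, hab⟩ := exists_submatrix_det_ne_zero (T z) t (h z hz hu0)
      exact hab (hΦ (a, b)))
  refine ⟨M, S, hM, fun w z hz hGz huz => ?_⟩
  obtain ⟨l, hl⟩ := hNS w z hz hGz huz
  exact ⟨l.1, l.2, hl⟩

/-- expansion of a bilinear map in coordinates -/
theorem US_bilin_expand {d₁ d₂ d₃ : ℕ}
    (μ : (Fin d₁ → K) →ₗ[K] (Fin d₂ → K) →ₗ[K] (Fin d₃ → K)) (x : Fin d₁ → K) (y : Fin d₂ → K)
    (p : Fin d₃) :
    μ x y p = ∑ i, ∑ j, x i * y j * μ (Pi.single i 1) (Pi.single j 1) p := by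
  have hx := pi_eq_sum_univ' x
  have hy := pi_eq_sum_univ' y
  have h1 : μ x y = ∑ i, ∑ j, (x i * y j) • μ (Pi.single i 1) (Pi.single j 1) := by
    conv_lhs => rw [hx]
    rw [map_sum, LinearMap.sum_apply]
    refine Finset.sum_congr rfl fun i _ => ?_
    conv_lhs => rw [hy]
    rw [map_smul, LinearMap.smul_apply, map_sum, Finset.smul_sum]
    refine Finset.sum_congr rfl fun j _ => ?_
    rw [map_smul, smul_smul]
  rw [h1, Finset.sum_apply]
  refine Finset.sum_congr rfl fun i _ => ?_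
  rw [Finset.sum_apply]
  rfl

/-- trivial direction: `‖μ x y‖ ≤ C ‖x‖ ‖y‖`. -/
theorem vnorm_bilin_le {d₁ d₂ d₃ : ℕ} (μ : (Fin d₁ → K) →ₗ[K] (Fin d₂ → K) →ₗ[K] (Fin d₃ → K)) :
    ∃ (M : ℝ) (S : Multiset K), 1 ≤ M ∧ ∀ (w : AbsoluteValue K ℝ) (x : Fin d₁ → K) (y : Fin d₂ → K),
      vnorm w (μ x y) ≤ locC M S w * (vnorm w x * vnorm w y) := by
  classical
  set S : Multiset K := (Finset.univ : Finset (Fin d₁ × Fin d₂ × Fin d₃)).val.map
    (fun q => μ (Pi.single q.1 1) (Pi.single q.2.1 1) q.2.2) with hS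
  refine ⟨max 1 (d₁ : ℝ) * max 1 (d₂ : ℝ) * 1, 0 + 0 + S, ?_, fun w x y => ?_⟩
  · rw [mul_one]
    exact one_le_mul_of_one_le_of_one_le (le_max_left _ _) (le_max_left _ _)
  have hx0 := vnorm_nonneg w x
  have hy0 := vnorm_nonneg w y
  have hC0 : 0 ≤ locC 1 S w := le_trans zero_le_one (US_one_le_locC le_rfl S w)
  have hC1 : 0 ≤ locC (max 1 (d₁ : ℝ)) (0 : Multiset K) w :=
    le_trans zero_le_one (US_one_le_locC (le_max_left _ _) 0 w)
  have hC2 : 0 ≤ locC (max 1 (d₂ : ℝ)) (0 : Multiset K) w :=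
    le_trans zero_le_one (US_one_le_locC (le_max_left _ _) 0 w)
  rw [US_locC_mul, US_locC_mul]
  refine vnorm_le w _ (by positivity) fun p => ?_
  rw [US_bilin_expand]
  have hB : 0 ≤ locC 1 S w * (vnorm w x * vnorm w y) := by positivity
  have hin : ∀ i, w (∑ j, x i * y j * μ (Pi.single i 1) (Pi.single j 1) p) ≤
      locC (max 1 (d₂ : ℝ)) 0 w * (locC 1 S w * (vnorm w x * vnorm w y)) := by
    intro i
    have h1 := abv_sum_le w Finset.univ
      (fun j => x i * y j * μ (Pi.single i 1) (Pi.single j 1) p) hB (fun j _ => by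
        rw [map_mul, map_mul]
        have h2 : w (μ (Pi.single i 1) (Pi.single j 1) p) ≤ locC 1 S w :=
          US_le_locC le_rfl S w (Multiset.mem_map.2 ⟨(i, j, p), Finset.mem_univ _, rfl⟩)
        calc w (x i) * w (y j) * w (μ (Pi.single i 1) (Pi.single j 1) p)
            ≤ vnorm w x * vnorm w y * locC 1 S w :=
              mul_le_mul (mul_le_mul (le_vnorm w x i) (le_vnorm w y j) (w.nonneg _) hx0) h2
                (w.nonneg _) (by positivity)
          _ = _ := by ring)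
    simpa using h1
  have h3 := abv_sum_le w Finset.univ
    (fun i => ∑ j, x i * y j * μ (Pi.single i 1) (Pi.single j 1) p)
    (B := locC (max 1 (d₂ : ℝ)) 0 w * (locC 1 S w * (vnorm w x * vnorm w y))) (by positivity)
    (fun i _ => hin i)
  calc _ ≤ _ := h3
    _ = _ := by simp; ring

/-! ## auxiliary lemmas for `US` -/

/-- the matrix of all products `μ (f a) (l b)` -/
def US_T {d₁ d₂ d₃ r s : ℕ} (μ : (Fin d₁ → K) →ₗ[K] (Fin d₂ → K) →ₗ[K] (Fin d₃ → K))
    (f : Matrix (Fin r) (Fin d₁) K) (l : Matrix (Fin s) (Fin d₂) K) :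
    Matrix (Fin r × Fin s) (Fin d₃) K :=
  Matrix.of fun ab p => μ (f ab.1) (l ab.2) p

theorem US_span_T {d₁ d₂ d₃ r s : ℕ} (μ : (Fin d₁ → K) →ₗ[K] (Fin d₂ → K) →ₗ[K] (Fin d₃ → K))
    (f : Matrix (Fin r) (Fin d₁) K) (l : Matrix (Fin s) (Fin d₂) K) :
    Submodule.span K (Set.range fun ab => US_T μ f l ab) =
      Submodule.map₂ μ (rowSpan f) (rowSpan l) := by
  unfold rowSpan
  rw [Submodule.map₂_span_span, Set.image2_range]
  rfl

theorem US_rank_T {d₁ d₂ d₃ r s : ℕ} (μ : (Fin d₁ → K) →ₗ[K] (Fin d₂ → K) →ₗ[K] (Fin d₃ → K))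
    (f : Matrix (Fin r) (Fin d₁) K) (l : Matrix (Fin s) (Fin d₂) K) :
    (US_T μ f l).rank = Module.finrank K (Submodule.map₂ μ (rowSpan f) (rowSpan l)) := by
  rw [Matrix.rank_eq_finrank_span_row, ← US_span_T]
  rfl

/-- a normalised basis of a subspace -/
theorem US_exists_basis (w : AbsoluteValue K ℝ) {r d : ℕ} (W : Submodule K (Fin d → K))
    (hW : Module.finrank K W = r) :
    ∃ (f : Matrix (Fin r) (Fin d) K) (α : Fin r → Fin d), minors f α = 1 ∧
      (∀ i j, w (f i j) ≤ 1) ∧ rowSpan f = W ∧ LinearIndependent K (fun i => f i) := by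
  subst hW
  set b := Module.finBasis K W with hb
  set M₀ : Matrix (Fin (Module.finrank K W)) (Fin d) K :=
    Matrix.of fun i => ((b i : W) : Fin d → K) with hM₀
  have hli : LinearIndependent K (fun i => M₀ i) := by
    have h1 : LinearIndependent K (fun i => ((b i : W) : Fin d → K)) :=
      b.linearIndependent.map' W.subtype (Submodule.ker_subtype W)
    exact h1
  have hspan : rowSpan M₀ = W := by
    unfold rowSpan
    have h1 : (Set.range fun i => M₀ i) = W.subtype '' (Set.range b) := by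
      rw [← Set.range_comp]; rfl
    rw [h1, Submodule.span_image, b.span_eq, Submodule.map_subtype_top]
  obtain ⟨g, f, α, -, hMgf, hfα, hf1, -⟩ := exists_ON w M₀ hli
  have hmin : minors f α = 1 := by
    unfold minors
    rw [hfα, Matrix.det_one]
  have hfli : LinearIndependent K (fun i => f i) :=
    linearIndependent_of_minor_ne_zero f α (by rw [hmin]; exact one_ne_zero)
  refine ⟨f, α, hmin, hf1, ?_, hfli⟩
  -- `W = rowSpan M₀ ≤ rowSpan f`, equal dimensions
  have hle : W ≤ rowSpan f := by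
    refine le_trans hspan.ge ?_
    unfold rowSpan
    rw [Submodule.span_le]
    rintro _ ⟨i, rfl⟩
    have h1 : M₀ i = ∑ j, g i j • f j := by
      rw [hMgf]
      ext c
      simp [Matrix.mul_apply]
    show M₀ i ∈ _
    rw [h1]
    exact Submodule.sum_mem _ fun j _ => Submodule.smul_mem _ _ (Submodule.subset_span ⟨j, rfl⟩)
  have hdim : Module.finrank K (rowSpan f) = Module.finrank K W := by
    unfold rowSpan
    rw [finrank_span_eq_card hfli, Fintype.card_fin]
  exact (Submodule.eq_of_le_of_finrank_eq hle hdim.symm).symm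

/-- Cramer's rule with estimates -/
theorem US_cramer (w : AbsoluteValue K ℝ) {t : ℕ} (N : Matrix (Fin t) (Fin t) K)
    (c y : Fin t → K) (hc : Matrix.vecMul c N = y) {B Y : ℝ} (hB : 1 ≤ B) (hY : 0 ≤ Y)
    (hN : ∀ i j, w (N i j) ≤ B) (hy : ∀ j, w (y j) ≤ Y) (i : Fin t) :
    w N.det * w (c i) ≤
      locC (max 1 (t : ℝ)) 0 w * (Y * (locC t.factorial 0 w * B ^ t)) := by
  have hB0 : 0 ≤ B := le_trans zero_le_one hB
  have h1 : N.det • c = Matrix.vecMul y N.adjugate := by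
    rw [← hc, Matrix.vecMul_vecMul, Matrix.mul_adjugate, Matrix.vecMul_smul, Matrix.vecMul_one]
  have h2 : N.det * c i = ∑ j, y j * N.adjugate j i := by
    have := congrFun h1 i
    simpa [Matrix.vecMul, dotProduct] using this
  have hadj : ∀ j, w (N.adjugate j i) ≤ locC t.factorial 0 w * B ^ t := by
    intro j
    rw [Matrix.adjugate_apply]
    refine abv_det_le w _ hB0 fun a b => ?_
    by_cases ha : a = i
    · subst ha
      rw [Matrix.updateRow_self]
      by_cases hb : b = j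
      · subst hb; simpa using hB
      · rw [Pi.single_eq_of_ne hb, map_zero]; exact hB0
    · rw [Matrix.updateRow_ne ha]; exact hN a b
  have hfac : (1 : ℝ) ≤ (t.factorial : ℝ) := by
    exact_mod_cast Nat.one_le_iff_ne_zero.2 (Nat.factorial_ne_zero t)
  have hC : 0 ≤ locC (t.factorial : ℝ) (0 : Multiset K) w :=
    le_trans zero_le_one (US_one_le_locC hfac 0 w)
  rw [← map_mul, h2]
  have h3 := abv_sum_le w Finset.univ (fun j => y j * N.adjugate j i)
    (B := Y * (locC t.factorial 0 w * B ^ t)) (by positivity) (fun j _ => by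
      rw [map_mul]
      exact mul_le_mul (hy j) (hadj j) (w.nonneg _) hY)
  simpa using h3

/-- the uniform lower bound for a minor of `US_T`, for normalised bases -/
theorem US_minor [IsAlgClosed K] {d₁ d₂ d₃ r s t : ℕ}
    (μ : (Fin d₁ → K) →ₗ[K] (Fin d₂ → K) →ₗ[K] (Fin d₃ → K))
    (𝒵₁ : Set (Submodule K (Fin d₁ → K))) (𝒵₂ : Set (Submodule K (Fin d₂ → K)))
    (h₁ : IsClosedFam r d₁ 𝒵₁) (h₂ : IsClosedFam s d₂ 𝒵₂)
    (hrank : ∀ W₁ ∈ 𝒵₁, ∀ W₂ ∈ 𝒵₂, Module.finrank K (Submodule.map₂ μ W₁ W₂) = t) :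
    ∃ (M : ℝ) (S : Multiset K), 1 ≤ M ∧ ∀ (w : AbsoluteValue K ℝ)
      (f : Matrix (Fin r) (Fin d₁) K) (l : Matrix (Fin s) (Fin d₂) K)
      (α : Fin r → Fin d₁) (β : Fin s → Fin d₂), minors f α = 1 → minors l β = 1 →
      (∀ i j, w (f i j) ≤ 1) → (∀ i j, w (l i j) ≤ 1) → rowSpan f ∈ 𝒵₁ → rowSpan l ∈ 𝒵₂ →
      ∃ (a : Fin t → Fin r × Fin s) (b : Fin t → Fin d₃),
        1 ≤ locC M S w * w ((US_T μ f l).submatrix a b).det := by
  classical
  obtain ⟨-, γ₁, G₁, hG₁, hZ₁⟩ := h₁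
  obtain ⟨-, γ₂, G₂, hG₂, hZ₂⟩ := h₂
  let ι := (Fin r × Fin d₁) ⊕ (Fin s × Fin d₂)
  let F : (ι → K) → Matrix (Fin r) (Fin d₁) K := fun z => Matrix.of fun a i => z (Sum.inl (a, i))
  let Lm : (ι → K) → Matrix (Fin s) (Fin d₂) K := fun z => Matrix.of fun b j => z (Sum.inr (b, j))
  let G : γ₁ ⊕ γ₂ → (ι → K) → K :=
    Sum.elim (fun j z => G₁ j (fun q => z (Sum.inl q))) (fun j z => G₂ j (fun q => z (Sum.inr q)))
  have hG : ∀ j, IsPolyFun (G j) := by
    rintro (j | j)
    · exact (hG₁ j).comp (ψ := fun q (z : ι → K) => z (Sum.inl q)) (fun q => IsPolyFun.proj _)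
    · exact (hG₂ j).comp (ψ := fun q (z : ι → K) => z (Sum.inr q)) (fun q => IsPolyFun.proj _)
  have hT : ∀ a b, IsPolyFun (fun z : ι → K => US_T μ (F z) (Lm z) a b) := by
    intro a b
    have h1 : (fun z : ι → K => US_T μ (F z) (Lm z) a b) = fun z =>
        ∑ i, ∑ j, z (Sum.inl (a.1, i)) * z (Sum.inr (a.2, j)) *
          μ (Pi.single i 1) (Pi.single j 1) b := by
      funext z
      exact US_bilin_expand μ _ _ b
    rw [h1]
    exact IsPolyFun.sum _ fun i _ => IsPolyFun.sum _ fun j _ =>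
      ((IsPolyFun.proj _).mul (IsPolyFun.proj _)).mul (IsPolyFun.const _)
  have hURL : ∀ αβ : (Fin r → Fin d₁) × (Fin s → Fin d₂),
      ∃ (M : ℝ) (S : Multiset K), 1 ≤ M ∧ ∀ (w : AbsoluteValue K ℝ) (z : ι → K),
      (∀ i, w (z i) ≤ 1) → (∀ j, G j z = 0) →
      1 ≤ w (minors (F z) αβ.1 * minors (Lm z) αβ.2) →
      ∃ (a : Fin t → Fin r × Fin s) (b : Fin t → Fin d₃),
        1 ≤ locC M S w * w ((US_T μ (F z) (Lm z)).submatrix a b).det := by
    intro αβ
    refine URL G hG (fun z => US_T μ (F z) (Lm z)) hT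
      (fun z => minors (F z) αβ.1 * minors (Lm z) αβ.2) ?_ t ?_
    · refine IsPolyFun.mul ?_ ?_
      · exact IsPolyFun.det (A := fun z : ι → K => (F z).submatrix id αβ.1)
          (fun a b => IsPolyFun.proj _)
      · exact IsPolyFun.det (A := fun z : ι → K => (Lm z).submatrix id αβ.2)
          (fun a b => IsPolyFun.proj _)
    · intro z hz hu
      have hu1 : minors (F z) αβ.1 ≠ 0 := left_ne_zero_of_mul hu
      have hu2 : minors (Lm z) αβ.2 ≠ 0 := right_ne_zero_of_mul hu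
      have hW₁ : rowSpan (F z) ∈ 𝒵₁ :=
        (hZ₁ (F z) (linearIndependent_of_minor_ne_zero _ _ hu1)).1 (fun j => hz (Sum.inl j))
      have hW₂ : rowSpan (Lm z) ∈ 𝒵₂ :=
        (hZ₂ (Lm z) (linearIndependent_of_minor_ne_zero _ _ hu2)).1 (fun j => hz (Sum.inr j))
      rw [US_rank_T, hrank _ hW₁ _ hW₂]
  choose Mf Sf hMf hURL' using hURL
  obtain ⟨M₁, S₁, hM₁, hdom⟩ := US_exists_locC Mf Sf hMf
  refine ⟨M₁, S₁, hM₁, fun w f l α β hα hβ hf hl hfZ hlZ => ?_⟩
  let z : ι → K := Sum.elim (fun q => f q.1 q.2) (fun q => l q.1 q.2)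
  have hFz : F z = f := rfl
  have hLz : Lm z = l := rfl
  have hfli : LinearIndependent K (fun i => f i) :=
    linearIndependent_of_minor_ne_zero f α (by rw [hα]; exact one_ne_zero)
  have hlli : LinearIndependent K (fun i => l i) :=
    linearIndependent_of_minor_ne_zero l β (by rw [hβ]; exact one_ne_zero)
  obtain ⟨a, b, hab⟩ := hURL' (α, β) w z
    (by
      rintro (q | q)
      · exact hf _ _
      · exact hl _ _)
    (by
      rintro (j | j)
      · exact (hZ₁ f hfli).2 hfZ j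
      · exact (hZ₂ l hlli).2 hlZ j)
    (by
      rw [hFz, hLz]
      show 1 ≤ w (minors f α * minors l β)
      rw [hα, hβ, mul_one, map_one])
  refine ⟨a, b, hab.trans ?_⟩
  rw [hFz, hLz]
  exact mul_le_mul_of_nonneg_right (hdom (α, β) w) (w.nonneg _)

/-- **(US)** uniform surjectivity. -/
theorem US [IsAlgClosed K] {d₁ d₂ d₃ r s t : ℕ}
    (μ : (Fin d₁ → K) →ₗ[K] (Fin d₂ → K) →ₗ[K] (Fin d₃ → K))
    (𝒵₁ : Set (Submodule K (Fin d₁ → K))) (𝒵₂ : Set (Submodule K (Fin d₂ → K)))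
    (h₁ : IsClosedFam r d₁ 𝒵₁) (h₂ : IsClosedFam s d₂ 𝒵₂)
    (hrank : ∀ W₁ ∈ 𝒵₁, ∀ W₂ ∈ 𝒵₂, Module.finrank K (Submodule.map₂ μ W₁ W₂) = t) :
    ∃ (M : ℝ) (S : Multiset K), 1 ≤ M ∧ ∀ (w : AbsoluteValue K ℝ), ∀ W₁ ∈ 𝒵₁, ∀ W₂ ∈ 𝒵₂,
      ∀ g ∈ Submodule.map₂ μ W₁ W₂,
      ∃ (f : Fin r → Fin d₁ → K) (l : Fin s → Fin d₂ → K) (c : Fin r → Fin s → K),
        (∀ a, f a ∈ W₁ ∧ vnorm w (f a) ≤ 1) ∧ (∀ b, l b ∈ W₂ ∧ vnorm w (l b) ≤ 1) ∧
        g = ∑ a, ∑ b, c a b • μ (f a) (l b) ∧ ∀ a b, w (c a b) ≤ locC M S w * vnorm w g := by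
  classical
  obtain ⟨M₁, S₁, hM₁, hmin⟩ := US_minor μ 𝒵₁ 𝒵₂ h₁ h₂ hrank
  obtain ⟨Mμ, Sμ, hMμ, hμ⟩ := vnorm_bilin_le μ
  have ht1 : (1 : ℝ) ≤ max 1 (t : ℝ) := le_max_left _ _
  have hfac : (1 : ℝ) ≤ (t.factorial : ℝ) := by
    exact_mod_cast Nat.one_le_iff_ne_zero.2 (Nat.factorial_ne_zero t)
  refine ⟨max 1 (t : ℝ) * (M₁ * (max 1 (t : ℝ) * ((t.factorial : ℝ) * Mμ ^ t))),
    0 + (S₁ + (0 + (0 + t • Sμ))), ?_, ?_⟩
  · exact one_le_mul_of_one_le_of_one_le ht1 (one_le_mul_of_one_le_of_one_le hM₁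
      (one_le_mul_of_one_le_of_one_le ht1 (one_le_mul_of_one_le_of_one_le hfac
        (one_le_pow₀ hMμ))))
  intro w W₁ hW₁ W₂ hW₂ g hg
  obtain ⟨f, α, hα, hf1, hfW, hfli⟩ := US_exists_basis w W₁ (h₁.1 W₁ hW₁)
  obtain ⟨l, β, hβ, hl1, hlW, hlli⟩ := US_exists_basis w W₂ (h₂.1 W₂ hW₂)
  obtain ⟨a, b, hab⟩ := hmin w f l α β hα hβ hf1 hl1 (hfW ▸ hW₁) (hlW ▸ hW₂)
  set T := US_T μ f l with hT
  set N := T.submatrix a b with hN
  have hdet : N.det ≠ 0 := by
    intro h0
    rw [h0, map_zero, mul_zero] at hab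
    linarith
  have hfmem : ∀ i, f i ∈ W₁ := fun i => hfW ▸ Submodule.subset_span ⟨i, rfl⟩
  have hlmem : ∀ i, l i ∈ W₂ := fun i => hlW ▸ Submodule.subset_span ⟨i, rfl⟩
  have hfn : ∀ i, vnorm w (f i) ≤ 1 := fun i => vnorm_le w _ zero_le_one (hf1 i)
  have hln : ∀ i, vnorm w (l i) ≤ 1 := fun i => vnorm_le w _ zero_le_one (hl1 i)
  -- the chosen rows form a basis of the image
  set R : Matrix (Fin t) (Fin d₃) K := T.submatrix a id with hR
  have hRrow : ∀ i, R i = μ (f (a i).1) (l (a i).2) := fun i => rfl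
  have hRli : LinearIndependent K (fun i => R i) := linearIndependent_of_minor_ne_zero R b hdet
  have hRle : Submodule.span K (Set.range fun i => R i) ≤ Submodule.map₂ μ W₁ W₂ := by
    rw [Submodule.span_le]
    rintro _ ⟨i, rfl⟩
    show R i ∈ _
    rw [hRrow]
    exact Submodule.apply_mem_map₂ μ (hfmem _) (hlmem _)
  have hReq : Submodule.span K (Set.range fun i => R i) = Submodule.map₂ μ W₁ W₂ :=
    Submodule.eq_of_le_of_finrank_eq hRle (by
      rw [finrank_span_eq_card hRli, Fintype.card_fin, hrank _ hW₁ _ hW₂])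
  rw [← hReq] at hg
  obtain ⟨c', hc'⟩ := (Submodule.mem_span_range_iff_exists_fun K).1 hg
  -- bounds
  set B := locC Mμ Sμ w with hB
  have hB1 : 1 ≤ B := US_one_le_locC hMμ Sμ w
  have hB0 : 0 ≤ B := le_trans zero_le_one hB1
  have hTB : ∀ ab p, w (T ab p) ≤ B := by
    intro ab p
    calc w (T ab p) ≤ vnorm w (μ (f ab.1) (l ab.2)) := le_vnorm w (μ (f ab.1) (l ab.2)) p
      _ ≤ B * (vnorm w (f ab.1) * vnorm w (l ab.2)) := hμ w _ _
      _ ≤ B * (1 * 1) := mul_le_mul_of_nonneg_left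
          (mul_le_mul (hfn _) (hln _) (vnorm_nonneg w _) zero_le_one) hB0
      _ = B := by ring
  have hvm : Matrix.vecMul c' N = fun j => g (b j) := by
    funext j
    rw [← hc', Finset.sum_apply]
    simp only [Matrix.vecMul, dotProduct, Pi.smul_apply, smul_eq_mul]
    rfl
  have hg0 := vnorm_nonneg w g
  have hcr := fun i => US_cramer w N c' (fun j => g (b j)) hvm hB1 hg0
    (fun i j => hTB _ _) (fun j => le_vnorm w g (b j)) i
  set C₁ := locC M₁ S₁ w with hC₁
  have hC₁0 : 0 ≤ C₁ := le_trans zero_le_one (US_one_le_locC hM₁ S₁ w)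
  set Ct := locC (max 1 (t : ℝ)) (0 : Multiset K) w with hCt
  have hCt0 : 0 ≤ Ct := le_trans zero_le_one (US_one_le_locC ht1 0 w)
  set Cf := locC (t.factorial : ℝ) (0 : Multiset K) w with hCf
  have hCf0 : 0 ≤ Cf := le_trans zero_le_one (US_one_le_locC hfac 0 w)
  have hc'B : ∀ i, w (c' i) ≤ C₁ * (Ct * (vnorm w g * (Cf * B ^ t))) := by
    intro i
    calc w (c' i) = 1 * w (c' i) := (one_mul _).symm
      _ ≤ (C₁ * w N.det) * w (c' i) := mul_le_mul_of_nonneg_right hab (w.nonneg _)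
      _ = C₁ * (w N.det * w (c' i)) := by ring
      _ ≤ _ := mul_le_mul_of_nonneg_left (hcr i) hC₁0
  refine ⟨fun i => f i, fun j => l j, fun a' b' => ∑ i with a i = (a', b'), c' i,
    fun a' => ⟨hfmem a', hfn a'⟩, fun b' => ⟨hlmem b', hln b'⟩, ?_, fun a' b' => ?_⟩
  · rw [← hc', ← Finset.sum_fiberwise Finset.univ a, Fintype.sum_prod_type]
    refine Finset.sum_congr rfl fun a' _ => Finset.sum_congr rfl fun b' _ => ?_
    rw [Finset.sum_smul]
    refine Finset.sum_congr rfl fun i hi => ?_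
    rw [hRrow, (Finset.mem_filter.1 hi).2]
  · have hBB : 0 ≤ C₁ * (Ct * (vnorm w g * (Cf * B ^ t))) := by positivity
    have h1 := abv_sum_le w (Finset.univ.filter fun i => a i = (a', b')) c' hBB
      (fun i _ => hc'B i)
    have hcard : max 1 (((Finset.univ.filter fun i => a i = (a', b')).card : ℕ) : ℝ) ≤
        max 1 (t : ℝ) := by
      refine max_le_max le_rfl ?_
      have := Finset.card_le_univ (Finset.univ.filter fun i => a i = (a', b'))
      rw [Fintype.card_fin] at this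
      exact_mod_cast this
    have h2 := US_locC_mono hcard (0 : Multiset K) w
    calc _ ≤ _ := h1
      _ ≤ Ct * (C₁ * (Ct * (vnorm w g * (Cf * B ^ t)))) := mul_le_mul_of_nonneg_right h2 hBB
      _ = _ := by
        rw [US_locC_mul, US_locC_mul, US_locC_mul, US_locC_mul, US_locC_pow]
        ring

end Fermat.Agent.S17.HN
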