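import Fermat.Agent.S17.HN.US
import Fermat.Agent.S17.HA.Loc

/-! # HN-ML2: (M1) and (HYP), local form -/

set_option autoImplicit false

namespace Fermat.Agent.S17.HN

variable {K : Type} [Field K]

/-! ## `locC` -/

theorem ML2_locC_eq (M : ℝ) (S : Multiset K) (w : AbsoluteValue K ℝ) :
    locC M S w = HA.locC M S w := rfl

theorem ML2_one_le_locC (w : AbsoluteValue K ℝ) {M : ℝ} (hM : 1 ≤ M) (S : Multiset K) :
    1 ≤ locC M S w := HA.one_le_locC w hM S

theorem ML2_locC_pos (w : AbsoluteValue K ℝ) {M : ℝ} (hM : 1 ≤ M) (S : Multiset K) :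
    0 < locC M S w := HA.locC_pos w hM S

theorem ML2_locC_mul (w : AbsoluteValue K ℝ) (M M' : ℝ) (S S' : Multiset K) :
    locC M S w * locC M' S' w = locC (M * M') (S + S') w := HA.locC_mul w M M' S S'

theorem ML2_locC_pow (w : AbsoluteValue K ℝ) (M : ℝ) (S : Multiset K) (n : ℕ) :
    locC M S w ^ n = locC (M ^ n) (n • S) w := HA.locC_pow w M S n

theorem ML2_locC_le_left (w : AbsoluteValue K ℝ) {M M' : ℝ} (hM : 1 ≤ M) (hM' : 1 ≤ M')
    (S S' : Multiset K) : locC M S w ≤ locC (M * M') (S + S') w :=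
  HA.locC_le_add_left w hM hM' S S'

theorem ML2_locC_le_right (w : AbsoluteValue K ℝ) {M M' : ℝ} (hM : 1 ≤ M) (hM' : 1 ≤ M')
    (S S' : Multiset K) : locC M' S' w ≤ locC (M * M') (S + S') w :=
  HA.locC_le_add_right w hM hM' S S'

/-- finitely many constants are dominated by one. -/
theorem ML2_exists_locC_bound {α : Type} [Finite α] (M : α → ℝ) (S : α → Multiset K)
    (hM : ∀ a, 1 ≤ M a) :
    ∃ (M' : ℝ) (S' : Multiset K), 1 ≤ M' ∧ ∀ (w : AbsoluteValue K ℝ) (a : α),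
      locC (M a) (S a) w ≤ locC M' S' w := by
  classical
  have key : ∀ s : Finset α, ∃ (M' : ℝ) (S' : Multiset K), 1 ≤ M' ∧
      ∀ (w : AbsoluteValue K ℝ), ∀ a ∈ s, locC (M a) (S a) w ≤ locC M' S' w := by
    intro s
    induction s using Finset.induction_on with
    | empty => exact ⟨1, 0, le_refl _, fun _ a ha => absurd ha (Finset.notMem_empty a)⟩
    | insert b s _ ih =>
      obtain ⟨M', S', hM', h⟩ := ih
      refine ⟨M b * M', S b + S', one_le_mul_of_one_le_of_one_le (hM b) hM', fun w a ha => ?_⟩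
      rcases Finset.mem_insert.mp ha with rfl | ha
      · exact ML2_locC_le_left w (hM a) hM' _ _
      · exact (h w a ha).trans (ML2_locC_le_right w (hM b) hM' _ _)
  have := Fintype.ofFinite α
  obtain ⟨M', S', hM', h⟩ := key Finset.univ
  exact ⟨M', S', hM', fun w a => h w a (Finset.mem_univ a)⟩

/-! ## minors with permuted / repeated rows or columns -/

/-- a square "minor" is `0` or `± det`. -/
theorem ML2_abv_det_submatrix_le (w : AbsoluteValue K ℝ) {n : ℕ} (A : Matrix (Fin n) (Fin n) K)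
    (s : Fin n → Fin n) : w (A.submatrix id s).det ≤ w A.det := by
  by_cases hs : Function.Injective s
  · have hb : Function.Bijective s := Finite.injective_iff_bijective.mp hs
    have : (A.submatrix id s) = A.submatrix id (Equiv.ofBijective s hb) := rfl
    rw [this, Matrix.det_permute', map_mul]
    have h1 : w ((Equiv.Perm.sign (Equiv.ofBijective s hb) : ℤ) : K) = 1 := by
      rcases Int.units_eq_one_or (Equiv.Perm.sign (Equiv.ofBijective s hb)) with h | h <;>
        simp [h]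
    rw [h1, one_mul]
  · obtain ⟨i, j, hij, hne⟩ := Function.not_injective_iff.mp hs
    rw [Matrix.det_zero_of_column_eq hne (fun k => by simp [hij]), map_zero]
    exact w.nonneg _

theorem ML2_abv_det_submatrix_row_le (w : AbsoluteValue K ℝ) {n : ℕ}
    (A : Matrix (Fin n) (Fin n) K) (s : Fin n → Fin n) :
    w (A.submatrix s id).det ≤ w A.det := by
  have := ML2_abv_det_submatrix_le w A.transpose s
  rwa [← Matrix.transpose_submatrix, Matrix.det_transpose, Matrix.det_transpose] at this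

theorem ML2_msize_square (w : AbsoluteValue K ℝ) {n : ℕ} (A : Matrix (Fin n) (Fin n) K) :
    msize w A = w A.det := by
  apply le_antisymm
  · exact vnorm_le w _ (w.nonneg _) fun s => ML2_abv_det_submatrix_le w A s
  · have := le_vnorm w (minors A) id
    have h2 : minors A id = A.det := by simp [minors]
    rw [h2] at this
    exact this

/-! ## (HYP) -/

/-- **(HYP), local.** hyperplane `ker φ` of `K^(d+1)` versus the coefficient vector of `φ`:
`B` a basis of `K^(d+1)` with `φ (B 0) = 1`, `φ (B (i+1)) = 0`. -/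
theorem HYP_local' {d : ℕ} (w : AbsoluteValue K ℝ) (φ : Fin (d + 1) → K)
    (B : Matrix (Fin (d + 1)) (Fin (d + 1)) K) (hB : B.det ≠ 0)
    (h0 : ∑ j, φ j * B 0 j = 1) (hs : ∀ i : Fin d, ∑ j, φ j * B i.succ j = 0) :
    msize w (tl B) ≤ locC (d + 1) 0 w * (w B.det * vnorm w φ) ∧
    w B.det * vnorm w φ ≤ locC (d + 1) 0 w * msize w (tl B) := by
  have hd1 : (1 : ℝ) ≤ (d : ℝ) + 1 := by
    have : (0 : ℝ) ≤ d := Nat.cast_nonneg d
    linarith
  have hC0 : 0 ≤ locC ((d : ℝ) + 1) (0 : Multiset K) w := (ML2_locC_pos w hd1 0).le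
  have hLI : LinearIndependent K (fun i => B i) :=
    linearIndependent_of_minor_ne_zero B id (by simpa [minors] using hB)
  have hsq : msize w B = w B.det := ML2_msize_square w B
  constructor
  · obtain ⟨c, hc0, hc⟩ := exists_small_vector w B hLI
    set x := Matrix.vecMul c B with hx
    have hφx : ∑ j, φ j * x j = 1 := by
      have h1 : ∀ j, φ j * x j = ∑ i, c i * (φ j * B i j) := by
        intro j
        rw [hx, Matrix.vecMul, dotProduct, Finset.mul_sum]
        exact Finset.sum_congr rfl fun i _ => by ring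
      simp only [h1]
      rw [Finset.sum_comm]
      simp only [← Finset.mul_sum]
      rw [Fin.sum_univ_succ, h0, hc0]
      simp [hs]
    have h1 : (1 : ℝ) ≤ locC ((d : ℝ) + 1) 0 w * (vnorm w φ * vnorm w x) := by
      have h2 := abv_sum_le w Finset.univ (fun j => φ j * x j)
        (mul_nonneg (vnorm_nonneg w φ) (vnorm_nonneg w x)) (fun j _ => by
          rw [map_mul]
          exact mul_le_mul (le_vnorm w φ j) (le_vnorm w x j) (w.nonneg _) (vnorm_nonneg w φ))
      rw [hφx, map_one, Finset.card_univ, Fintype.card_fin] at h2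
      have h3 : max (1 : ℝ) ((d + 1 : ℕ) : ℝ) = (d : ℝ) + 1 := by
        push_cast
        exact max_eq_right hd1
      rwa [h3] at h2
    have hm0 : 0 ≤ msize w (tl B) := vnorm_nonneg w _
    calc msize w (tl B) = 1 * msize w (tl B) := (one_mul _).symm
      _ ≤ (locC ((d : ℝ) + 1) 0 w * (vnorm w φ * vnorm w x)) * msize w (tl B) :=
          mul_le_mul_of_nonneg_right h1 hm0
      _ = locC ((d : ℝ) + 1) 0 w * (vnorm w φ * (vnorm w x * msize w (tl B))) := by ring
      _ ≤ locC ((d : ℝ) + 1) 0 w * (vnorm w φ * msize w B) :=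
          mul_le_mul_of_nonneg_left (mul_le_mul_of_nonneg_left hc (vnorm_nonneg w φ)) hC0
      _ = locC ((d : ℝ) + 1) 0 w * (w B.det * vnorm w φ) := by rw [hsq, mul_comm (vnorm w φ)]
  · obtain ⟨j, hj⟩ := exists_vnorm_eq w φ
    have hu : IsUnit B.det := isUnit_iff_ne_zero.mpr hB
    set c := Matrix.vecMul (Pi.single j 1) B⁻¹ with hc
    have hcB : Matrix.vecMul c B = Pi.single j 1 := by
      rw [hc, Matrix.vecMul_vecMul, Matrix.nonsing_inv_mul _ hu, Matrix.vecMul_one]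
    have hBφ : Matrix.mulVec B φ = Pi.single 0 1 := by
      funext i
      rw [Matrix.mulVec, dotProduct]
      refine Fin.cases ?_ (fun i => ?_) i
      · rw [Pi.single_eq_same, ← h0]
        exact Finset.sum_congr rfl fun _ _ => mul_comm _ _
      · rw [Pi.single_eq_of_ne (Fin.succ_ne_zero i), ← hs i]
        exact Finset.sum_congr rfl fun _ _ => mul_comm _ _
    have hφ : φ = Matrix.mulVec B⁻¹ (Pi.single 0 1) := by
      rw [← hBφ, Matrix.mulVec_mulVec, Matrix.nonsing_inv_mul _ hu, Matrix.one_mulVec]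
    have hc0 : c 0 = φ j := by
      rw [hc, hφ, Matrix.single_one_vecMul, Matrix.mulVec_single_one]
      rfl
    have h1 := laplace_bound w B c 0
    rw [hcB, hc0, hsq, Fin.succAbove_zero] at h1
    have h2 : vnorm w (Pi.single j (1 : K) : Fin (d + 1) → K) ≤ 1 := by
      refine vnorm_le w _ zero_le_one fun i => ?_
      by_cases hij : i = j
      · subst hij; rw [Pi.single_eq_same, map_one]
      · rw [Pi.single_eq_of_ne hij, map_zero]; exact zero_le_one
    have hm0 : 0 ≤ msize w (tl B) := vnorm_nonneg w _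
    calc w B.det * vnorm w φ = w (φ j) * w B.det := by rw [hj, mul_comm]
      _ ≤ locC ((d : ℝ) + 1) 0 w * (vnorm w (Pi.single j (1 : K) : Fin (d + 1) → K) *
            msize w (tl B)) := h1
      _ ≤ locC ((d : ℝ) + 1) 0 w * (1 * msize w (tl B)) :=
          mul_le_mul_of_nonneg_left (mul_le_mul_of_nonneg_right h2 hm0) hC0
      _ = locC ((d : ℝ) + 1) 0 w * msize w (tl B) := by rw [one_mul]

/-! ## (M1) -/

/-- expansion of a bilinear map in coordinates. -/
theorem ML2_bilin_apply {d₁ d₂ d₃ : ℕ}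
    (μ : (Fin d₁ → K) →ₗ[K] (Fin d₂ → K) →ₗ[K] (Fin d₃ → K)) (x : Fin d₁ → K) (y : Fin d₂ → K)
    (j : Fin d₃) :
    μ x y j = ∑ i, ∑ l, x i * (y l *
      μ (fun a => if i = a then 1 else 0) (fun b => if l = b then 1 else 0) j) := by
  rw [LinearMap.pi_apply_eq_sum_univ μ x, LinearMap.sum_apply, Finset.sum_apply]
  refine Finset.sum_congr rfl fun i _ => ?_
  rw [LinearMap.smul_apply, Pi.smul_apply, smul_eq_mul,
    LinearMap.pi_apply_eq_sum_univ (μ fun a => if i = a then 1 else 0) y, Finset.sum_apply,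
    Finset.mul_sum]
  refine Finset.sum_congr rfl fun l _ => ?_
  rw [Pi.smul_apply, smul_eq_mul]

/-- the variables `(c, f)`. -/
abbrev ML2Var (d₁ r d₂ : ℕ) : Type := Fin d₁ ⊕ (Fin r × Fin d₂)

/-- the vector part of a point. -/
def ML2c {d₁ r d₂ : ℕ} (z : ML2Var d₁ r d₂ → K) : Fin d₁ → K := fun i => z (Sum.inl i)

/-- the matrix part of a point. -/
def ML2f {d₁ r d₂ : ℕ} (z : ML2Var d₁ r d₂ → K) : Matrix (Fin r) (Fin d₂) K :=
  Matrix.of fun a l => z (Sum.inr (a, l))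

/-- the matrix `(μ c f_a)_a`. -/
def ML2T {d₁ d₂ d₃ r : ℕ} (μ : (Fin d₁ → K) →ₗ[K] (Fin d₂ → K) →ₗ[K] (Fin d₃ → K))
    (z : ML2Var d₁ r d₂ → K) : Matrix (Fin r) (Fin d₃) K :=
  Matrix.of fun a => μ (ML2c z) (ML2f z a)

theorem ML2T_isPolyFun {d₁ d₂ d₃ r : ℕ}
    (μ : (Fin d₁ → K) →ₗ[K] (Fin d₂ → K) →ₗ[K] (Fin d₃ → K)) (a : Fin r) (b : Fin d₃) :
    IsPolyFun (fun z : ML2Var d₁ r d₂ → K => ML2T μ z a b) := by
  have h : (fun z : ML2Var d₁ r d₂ → K => ML2T μ z a b) = fun z => ∑ i ∈ Finset.univ,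
      ∑ l ∈ Finset.univ, z (Sum.inl i) * (z (Sum.inr (a, l)) *
        μ (fun a => if i = a then 1 else 0) (fun b => if l = b then 1 else 0) b) := by
    funext z
    exact ML2_bilin_apply μ (ML2c z) (ML2f z a) b
  rw [h]
  exact IsPolyFun.sum _ fun i _ => IsPolyFun.sum _ fun l _ =>
    (IsPolyFun.proj _).mul ((IsPolyFun.proj _).mul (IsPolyFun.const _))

theorem ML2u_isPolyFun {d₁ d₂ r : ℕ} (p : Fin d₁) (α : Fin r → Fin d₂) :
    IsPolyFun (fun z : ML2Var d₁ r d₂ → K => z (Sum.inl p) * minors (ML2f z) α) :=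
  (IsPolyFun.proj _).mul (IsPolyFun.det (A := fun z => (ML2f z).submatrix id α)
    fun _ _ => IsPolyFun.proj _)

theorem ML2_rank {d₁ d₂ d₃ r : ℕ} (μ : (Fin d₁ → K) →ₗ[K] (Fin d₂ → K) →ₗ[K] (Fin d₃ → K))
    (hμ : ∀ x y, μ x y = 0 → x = 0 ∨ y = 0) (p : Fin d₁) (α : Fin r → Fin d₂)
    (z : ML2Var d₁ r d₂ → K) (hz : z (Sum.inl p) * minors (ML2f z) α ≠ 0) :
    r ≤ (ML2T μ z).rank := by
  have hc : ML2c z ≠ 0 := fun h => (left_ne_zero_of_mul hz) (congrFun h p)
  have hf : LinearIndependent K (fun i => ML2f z i) :=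
    linearIndependent_of_minor_ne_zero _ α (right_ne_zero_of_mul hz)
  have hinj : LinearMap.ker (μ (ML2c z)) = ⊥ := by
    rw [LinearMap.ker_eq_bot']
    intro y hy
    exact (hμ _ _ hy).resolve_left hc
  have hli : LinearIndependent K (fun i => ML2T μ z i) := hf.map' (μ (ML2c z)) hinj
  have h : (ML2T μ z).rank = Fintype.card (Fin r) := hli.rank_matrix
  rw [h, Fintype.card_fin]

/-- lower bound for normalised data. -/
theorem ML2_lower [IsAlgClosed K] {d₁ d₂ d₃ : ℕ} (r : ℕ)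
    (μ : (Fin d₁ → K) →ₗ[K] (Fin d₂ → K) →ₗ[K] (Fin d₃ → K))
    (hμ : ∀ x y, μ x y = 0 → x = 0 ∨ y = 0) :
    ∃ (M : ℝ) (S : Multiset K), 1 ≤ M ∧ ∀ (w : AbsoluteValue K ℝ) (c : Fin d₁ → K)
      (f : Matrix (Fin r) (Fin d₂) K) (p : Fin d₁) (α : Fin r → Fin d₂),
      (∀ i, w (c i) ≤ 1) → c p = 1 → (∀ i j, w (f i j) ≤ 1) → f.submatrix id α = 1 →
      1 ≤ locC M S w * msize w (Matrix.of fun a => μ c (f a)) := by
  choose M S hM hURL using fun pα : Fin d₁ × (Fin r → Fin d₂) =>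
    URL (ι := ML2Var d₁ r d₂) (γ := Empty) (ρ := Fin r) (κ := Fin d₃) (K := K)
      (fun e => e.elim) (fun e => e.elim) (ML2T μ) (ML2T_isPolyFun μ)
      (fun z => z (Sum.inl pα.1) * minors (ML2f z) pα.2) (ML2u_isPolyFun pα.1 pα.2) r
      (fun z _ hz => ML2_rank μ hμ pα.1 pα.2 z hz)
  obtain ⟨M', S', hM', hle⟩ := ML2_exists_locC_bound M S hM
  refine ⟨M', S', hM', fun w c f p α hc hcp hf hfα => ?_⟩
  set z : ML2Var d₁ r d₂ → K := Sum.elim c (fun q => f q.1 q.2) with hz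
  have hzc : ML2c z = c := rfl
  have hzf : ML2f z = f := rfl
  have hzT : ML2T μ z = Matrix.of fun a => μ c (f a) := rfl
  obtain ⟨a, b, hab⟩ := hURL (p, α) w z
    (by
      rintro (i | q)
      · exact hc i
      · exact hf q.1 q.2)
    (fun e => e.elim)
    (by
      show 1 ≤ w (c p * minors f α)
      rw [hcp, one_mul, minors, hfα, Matrix.det_one, map_one])
  rw [hzT] at hab
  set T := Matrix.of fun a => μ c (f a) with hT
  have h1 : w (T.submatrix a b).det ≤ msize w T := by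
    have h2 : T.submatrix a b = (T.submatrix id b).submatrix a id := rfl
    rw [h2]
    exact (ML2_abv_det_submatrix_row_le w _ a).trans (le_vnorm w (minors T) b)
  calc (1 : ℝ) ≤ locC (M (p, α)) (S (p, α)) w * w (T.submatrix a b).det := hab
    _ ≤ locC M' S' w * msize w T :=
        mul_le_mul (hle w (p, α)) h1 (w.nonneg _) (ML2_locC_pos w hM' S').le

/-- upper bound for normalised data. -/
theorem ML2_upper {d₁ d₂ d₃ : ℕ} (r : ℕ)
    (μ : (Fin d₁ → K) →ₗ[K] (Fin d₂ → K) →ₗ[K] (Fin d₃ → K)) :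
    ∃ (M : ℝ) (S : Multiset K), 1 ≤ M ∧ ∀ (w : AbsoluteValue K ℝ) (c : Fin d₁ → K)
      (f : Matrix (Fin r) (Fin d₂) K), (∀ i, w (c i) ≤ 1) → (∀ i j, w (f i j) ≤ 1) →
      msize w (Matrix.of fun a => μ c (f a)) ≤ locC M S w := by
  obtain ⟨M₁, S₁, hM₁, h₁⟩ := vnorm_bilin_le μ
  have hfac : (1 : ℝ) ≤ (r.factorial : ℝ) := by exact_mod_cast r.factorial_pos
  refine ⟨r.factorial * M₁ ^ r, 0 + r • S₁,
    one_le_mul_of_one_le_of_one_le hfac (one_le_pow₀ hM₁), fun w c f hc hf => ?_⟩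
  have hC := ML2_locC_pos w hM₁ S₁
  rw [← ML2_locC_mul, ← ML2_locC_pow]
  refine vnorm_le w _ (mul_nonneg (ML2_locC_pos w hfac 0).le (pow_nonneg hC.le r)) fun s => ?_
  refine abv_det_le w _ hC.le fun i j => ?_
  show w (μ c (f i) (s j)) ≤ _
  calc w (μ c (f i) (s j)) ≤ vnorm w (μ c (f i)) := le_vnorm w _ _
    _ ≤ locC M₁ S₁ w * (vnorm w c * vnorm w (f i)) := h₁ w c (f i)
    _ ≤ locC M₁ S₁ w * (1 * 1) :=
        mul_le_mul_of_nonneg_left (mul_le_mul (vnorm_le w c zero_le_one hc)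
          (vnorm_le w (f i) zero_le_one (hf i)) (vnorm_nonneg w _) zero_le_one) hC.le
    _ = locC M₁ S₁ w := by rw [mul_one, mul_one]

/-- **(M1), local.** `μ` without zero divisors. -/
theorem M1_local' [IsAlgClosed K] {d₁ d₂ d₃ : ℕ} (r : ℕ)
    (μ : (Fin d₁ → K) →ₗ[K] (Fin d₂ → K) →ₗ[K] (Fin d₃ → K))
    (hμ : ∀ x y, μ x y = 0 → x = 0 ∨ y = 0) :
    ∃ (M : ℝ) (S : Multiset K), 1 ≤ M ∧ ∀ (w : AbsoluteValue K ℝ) (c : Fin d₁ → K)
      (B : Matrix (Fin r) (Fin d₂) K), c ≠ 0 → LinearIndependent K (fun i => B i) →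
      msize w (Matrix.of fun a => μ c (B a)) ≤ locC M S w * (vnorm w c ^ r * msize w B) ∧
      vnorm w c ^ r * msize w B ≤ locC M S w * msize w (Matrix.of fun a => μ c (B a)) := by
  obtain ⟨M₁, S₁, hM₁, hup⟩ := ML2_upper r μ
  obtain ⟨M₂, S₂, hM₂, hlow⟩ := ML2_lower r μ hμ
  refine ⟨M₁ * M₂, S₁ + S₂, one_le_mul_of_one_le_of_one_le hM₁ hM₂, fun w c B hc hB => ?_⟩
  obtain ⟨i₀, -⟩ := Function.ne_iff.mp hc
  have : Nonempty (Fin d₁) := ⟨i₀⟩
  obtain ⟨p, hp⟩ := exists_vnorm_eq w c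
  have hpos : 0 < w (c p) := hp ▸ vnorm_pos w hc
  have hcp : c p ≠ 0 := w.pos_iff.mp hpos
  set c' : Fin d₁ → K := (c p)⁻¹ • c with hc'
  have hcc' : c = c p • c' := by rw [hc', smul_smul, mul_inv_cancel₀ hcp, one_smul]
  have hc'1 : ∀ i, w (c' i) ≤ 1 := by
    intro i
    rw [hc', Pi.smul_apply, smul_eq_mul, map_mul, map_inv₀, inv_mul_le_iff₀ hpos, mul_one, ← hp]
    exact le_vnorm w c i
  have hc'p : c' p = 1 := by rw [hc', Pi.smul_apply, smul_eq_mul, inv_mul_cancel₀ hcp]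
  obtain ⟨g, f, α, -, hBgf, hfα, hf1, hg⟩ := exists_ON w B hB
  set T' := Matrix.of fun a => μ c' (f a) with hT'
  have hmat : (Matrix.of fun a => μ c (B a)) = (c p • g) * T' := by
    ext a j
    have hrow : B a = ∑ b, g a b • f b := by
      funext l
      rw [hBgf, Matrix.mul_apply, Finset.sum_apply]
      rfl
    rw [Matrix.of_apply, hrow, hcc', map_smul, LinearMap.smul_apply, map_sum, Pi.smul_apply,
      Finset.sum_apply, Matrix.mul_apply, smul_eq_mul, Finset.mul_sum]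
    refine Finset.sum_congr rfl fun b _ => ?_
    rw [map_smul, Pi.smul_apply, smul_eq_mul, Matrix.smul_apply, smul_eq_mul, hT', Matrix.of_apply,
      ← hcc', mul_assoc]
  have hms : msize w (Matrix.of fun a => μ c (B a)) = vnorm w c ^ r * msize w B * msize w T' := by
    rw [hmat, msize_mul, Matrix.det_smul, Fintype.card_fin, map_mul, map_pow, hg, hp]
  have hX : 0 ≤ vnorm w c ^ r * msize w B :=
    mul_nonneg (pow_nonneg (vnorm_nonneg w c) r) (vnorm_nonneg w _)
  have hT0 : 0 ≤ msize w T' := vnorm_nonneg w _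
  rw [hms]
  constructor
  · calc vnorm w c ^ r * msize w B * msize w T'
        ≤ vnorm w c ^ r * msize w B * locC (M₁ * M₂) (S₁ + S₂) w :=
          mul_le_mul_of_nonneg_left ((hup w c' f hc'1 hf1).trans
            (ML2_locC_le_left w hM₁ hM₂ S₁ S₂)) hX
      _ = locC (M₁ * M₂) (S₁ + S₂) w * (vnorm w c ^ r * msize w B) := mul_comm _ _
  · have h1 : 1 ≤ locC (M₁ * M₂) (S₁ + S₂) w * msize w T' :=
      (hlow w c' f p α hc'1 hc'p hf1 hfα).trans
        (mul_le_mul_of_nonneg_right (ML2_locC_le_right w hM₁ hM₂ S₁ S₂) hT0)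
    calc vnorm w c ^ r * msize w B = vnorm w c ^ r * msize w B * 1 := (mul_one _).symm
      _ ≤ vnorm w c ^ r * msize w B * (locC (M₁ * M₂) (S₁ + S₂) w * msize w T') :=
          mul_le_mul_of_nonneg_left h1 hX
      _ = locC (M₁ * M₂) (S₁ + S₂) w * (vnorm w c ^ r * msize w B * msize w T') := by ring

end Fermat.Agent.S17.HN
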