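import Fermat.Agent.S17.HN.US
import Fermat.Agent.S17.HN.ML2
import Fermat.Agent.S17.HA.Loc
import Fermat.Agent.S17.HN.ML2

/-! # HN-ML: (MULT) and (M1), local form (one arbitrary absolute value) -/

set_option autoImplicit false

namespace Fermat.Agent.S17.HN

variable {K : Type} [Field K]

/-- The configuration of (MULT): bases `B₁, B₂, B₃` of `W₁, W₂, W₃ = W₁·W₂`, adapted to hyperplanes
`Wᵢ' = rowSpan (tl Bᵢ)` with `W₁'·W₂ ≤ W₃'`, `W₁·W₂' ≤ W₃'`, and `B₃ 0 = B₁ 0 · B₂ 0`. -/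
structure MultCfg {d₁ d₂ d₃ r s t : ℕ} (μ : (Fin d₁ → K) →ₗ[K] (Fin d₂ → K) →ₗ[K] (Fin d₃ → K))
    (B₁ : Matrix (Fin (r + 1)) (Fin d₁) K) (B₂ : Matrix (Fin (s + 1)) (Fin d₂) K)
    (B₃ : Matrix (Fin (t + 1)) (Fin d₃) K) : Prop where
  li₁ : LinearIndependent K (fun i => B₁ i)
  li₂ : LinearIndependent K (fun i => B₂ i)
  li₃ : LinearIndependent K (fun i => B₃ i)
  span₃ : rowSpan B₃ = Submodule.map₂ μ (rowSpan B₁) (rowSpan B₂)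
  zero₃ : B₃ 0 = μ (B₁ 0) (B₂ 0)
  left : Submodule.map₂ μ (rowSpan (tl B₁)) (rowSpan B₂) ≤ rowSpan (tl B₃)
  right : Submodule.map₂ μ (rowSpan B₁) (rowSpan (tl B₂)) ≤ rowSpan (tl B₃)

/-! ### the coefficient of row `0` -/

theorem ML1_locC_eq (M : ℝ) (S : Multiset K) (w : AbsoluteValue K ℝ) :
    locC M S w = HA.locC M S w := rfl

/-- `x` lies in the row space of `B` and its coefficient along row `0` is `a`. -/
def ML1_Coef {r d : ℕ} (B : Matrix (Fin (r + 1)) (Fin d) K) (x : Fin d → K) (a : K) : Prop :=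
  ∃ c : Fin (r + 1) → K, c 0 = a ∧ Matrix.vecMul c B = x

section Coef

variable {r d : ℕ} {B : Matrix (Fin (r + 1)) (Fin d) K}

theorem ML1_vecMul_mem (c : Fin (r + 1) → K) : Matrix.vecMul c B ∈ rowSpan B := by
  rw [Matrix.vecMul_eq_sum]
  exact Submodule.sum_mem _ fun i _ => Submodule.smul_mem _ _ (Submodule.subset_span ⟨i, rfl⟩)

theorem ML1_exists_vecMul {x : Fin d → K} (hx : x ∈ rowSpan B) :
    ∃ c : Fin (r + 1) → K, Matrix.vecMul c B = x := by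
  obtain ⟨c, hc⟩ := (Submodule.mem_span_range_iff_exists_fun K).1 hx
  exact ⟨c, by rw [Matrix.vecMul_eq_sum]; exact hc⟩

theorem ML1_Coef.mem {x : Fin d → K} {a : K} (h : ML1_Coef B x a) : x ∈ rowSpan B := by
  obtain ⟨c, -, rfl⟩ := h
  exact ML1_vecMul_mem c

theorem ML1_Coef.zero : ML1_Coef B 0 0 := ⟨0, rfl, Matrix.zero_vecMul B⟩

theorem ML1_Coef.add {x y : Fin d → K} {a b : K} (hx : ML1_Coef B x a) (hy : ML1_Coef B y b) :
    ML1_Coef B (x + y) (a + b) := by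
  obtain ⟨c, rfl, rfl⟩ := hx
  obtain ⟨c', rfl, rfl⟩ := hy
  exact ⟨c + c', rfl, Matrix.add_vecMul _ _ _⟩

theorem ML1_Coef.smul {x : Fin d → K} {a : K} (e : K) (hx : ML1_Coef B x a) :
    ML1_Coef B (e • x) (e * a) := by
  obtain ⟨c, rfl, rfl⟩ := hx
  exact ⟨e • c, rfl, Matrix.smul_vecMul _ _ _⟩

theorem ML1_Coef.sum {α : Type} (s : Finset α) (x : α → Fin d → K) (a : α → K)
    (h : ∀ i ∈ s, ML1_Coef B (x i) (a i)) : ML1_Coef B (∑ i ∈ s, x i) (∑ i ∈ s, a i) := by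
  classical
  induction s using Finset.induction_on with
  | empty => simpa using ML1_Coef.zero
  | insert i s hi ih =>
    rw [Finset.sum_insert hi, Finset.sum_insert hi]
    exact (h i (Finset.mem_insert_self i s)).add
      (ih fun j hj => h j (Finset.mem_insert_of_mem hj))

theorem ML1_Coef.unique (hB : LinearIndependent K (fun i => B i)) {x : Fin d → K} {a b : K}
    (ha : ML1_Coef B x a) (hb : ML1_Coef B x b) : a = b := by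
  obtain ⟨c, rfl, hc⟩ := ha
  obtain ⟨c', rfl, hc'⟩ := hb
  have h0 : ∑ i, (c i - c' i) • B i = 0 := by
    simp only [sub_smul, Finset.sum_sub_distrib]
    rw [← Matrix.vecMul_eq_sum, ← Matrix.vecMul_eq_sum, hc, hc', sub_self]
  exact sub_eq_zero.1 (Fintype.linearIndependent_iff.1 hB _ h0 0)

theorem ML1_Coef.row_zero : ML1_Coef B (B 0) 1 := by
  refine ⟨Pi.single 0 1, by simp, ?_⟩
  rw [Matrix.vecMul_eq_sum, Finset.sum_eq_single 0]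
  · simp
  · intro j _ hj
    simp [hj]
  · intro h
    exact absurd (Finset.mem_univ _) h

theorem ML1_Coef.of_mem_tl {x : Fin d → K} (hx : x ∈ rowSpan (tl B)) : ML1_Coef B x 0 := by
  obtain ⟨c, hc⟩ := (Submodule.mem_span_range_iff_exists_fun K).1 hx
  refine ⟨Fin.cons 0 c, rfl, ?_⟩
  rw [Matrix.vecMul_eq_sum, Fin.sum_univ_succ, ← hc]
  simp only [Fin.cons_zero, zero_smul, zero_add, Fin.cons_succ]
  rfl

theorem ML1_Coef.sub_mem_tl {x : Fin d → K} {a : K} (hx : ML1_Coef B x a) :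
    x - a • B 0 ∈ rowSpan (tl B) := by
  obtain ⟨c, rfl, rfl⟩ := hx
  rw [Matrix.vecMul_eq_sum, Fin.sum_univ_succ, add_sub_cancel_left]
  exact Submodule.sum_mem _ fun i _ => Submodule.smul_mem _ _ (Submodule.subset_span ⟨i, rfl⟩)

end Coef

/-- multiplicativity of the coefficient of row `0` -/
theorem MultCfg.ML1_coef_mul {d₁ d₂ d₃ r s t : ℕ}
    {μ : (Fin d₁ → K) →ₗ[K] (Fin d₂ → K) →ₗ[K] (Fin d₃ → K)}
    {B₁ : Matrix (Fin (r + 1)) (Fin d₁) K} {B₂ : Matrix (Fin (s + 1)) (Fin d₂) K}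
    {B₃ : Matrix (Fin (t + 1)) (Fin d₃) K} (cfg : MultCfg μ B₁ B₂ B₃)
    {x : Fin d₁ → K} {y : Fin d₂ → K} {a b : K} (hx : ML1_Coef B₁ x a) (hy : ML1_Coef B₂ y b) :
    ML1_Coef B₃ (μ x y) (a * b) := by
  have hx' := hx.sub_mem_tl
  have hy' := hy.sub_mem_tl
  have h1 : ML1_Coef B₃ (μ (B₁ 0) (y - b • B₂ 0)) 0 :=
    ML1_Coef.of_mem_tl (cfg.right (Submodule.apply_mem_map₂ μ ML1_Coef.row_zero.mem hy'))
  have h2 : ML1_Coef B₃ (μ (x - a • B₁ 0) y) 0 :=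
    ML1_Coef.of_mem_tl (cfg.left (Submodule.apply_mem_map₂ μ hx' hy.mem))
  have h3 : ML1_Coef B₃ ((a * b) • B₃ 0) (a * b * 1) := ML1_Coef.row_zero.smul (a * b)
  have h4 := (h3.add (h1.smul a)).add h2
  have e1 : (a * b) • B₃ 0 + a • μ (B₁ 0) (y - b • B₂ 0) + μ (x - a • B₁ 0) y = μ x y := by
    rw [cfg.zero₃]
    simp only [map_sub, map_smul, LinearMap.sub_apply, LinearMap.smul_apply, smul_sub, mul_smul]
    abel
  have e2 : a * b * 1 + a * 0 + 0 = a * b := by ring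
  rw [e1, e2] at h4
  exact h4

/-! ### the two inequalities, with explicit constants -/

theorem ML1_msize_nonneg (w : AbsoluteValue K ℝ) {r d : ℕ} (M : Matrix (Fin r) (Fin d) K) :
    0 ≤ msize w M := vnorm_nonneg w _

theorem ML1_locC_nonneg {M : ℝ} (hM : 1 ≤ M) (S : Multiset K) (w : AbsoluteValue K ℝ) :
    0 ≤ locC M S w := (HA.locC_pos w hM S).le

/-- Laplace bound along row `0`. -/
theorem ML1_laplace_zero (w : AbsoluteValue K ℝ) {r d : ℕ} (M : Matrix (Fin (r + 1)) (Fin d) K)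
    (c : Fin (r + 1) → K) :
    w (c 0) * msize w M ≤ locC (r + 1) 0 w * (vnorm w (Matrix.vecMul c M) * msize w (tl M)) := by
  have h := laplace_bound w M c 0
  rw [Fin.succAbove_zero] at h
  exact h

theorem ML1_real_second {m₃ m₃' m₁ m₁' m₂ m₂' n₁ n₂ n₃ L C : ℝ} (hm₃' : 0 ≤ m₃') (hm₁' : 0 ≤ m₁')
    (hm₂' : 0 ≤ m₂') (hn₁ : 0 ≤ n₁) (hn₂ : 0 ≤ n₂) (hL : 0 ≤ L) (hC : 0 ≤ C)
    (hl : m₃ ≤ L * (n₃ * m₃')) (hb : n₃ ≤ C * (n₁ * n₂)) (hs₁ : n₁ * m₁' ≤ m₁)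
    (hs₂ : n₂ * m₂' ≤ m₂) : m₃ * (m₁' * m₂') ≤ (L * C) * (m₃' * (m₁ * m₂)) := by
  have h1 : 0 ≤ n₁ * m₁' := mul_nonneg hn₁ hm₁'
  have h2 : 0 ≤ n₂ * m₂' := mul_nonneg hn₂ hm₂'
  have h3 : 0 ≤ m₁ := h1.trans hs₁
  calc m₃ * (m₁' * m₂') ≤ (L * (n₃ * m₃')) * (m₁' * m₂') := by gcongr
    _ ≤ (L * ((C * (n₁ * n₂)) * m₃')) * (m₁' * m₂') := by gcongr
    _ = (L * C) * (m₃' * ((n₁ * m₁') * (n₂ * m₂'))) := by ring
    _ ≤ (L * C) * (m₃' * (m₁ * m₂)) := by gcongr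

theorem ML1_second {d₁ d₂ d₃ r s t : ℕ}
    {μ : (Fin d₁ → K) →ₗ[K] (Fin d₂ → K) →ₗ[K] (Fin d₃ → K)}
    {B₁ : Matrix (Fin (r + 1)) (Fin d₁) K} {B₂ : Matrix (Fin (s + 1)) (Fin d₂) K}
    {B₃ : Matrix (Fin (t + 1)) (Fin d₃) K} (cfg : MultCfg μ B₁ B₂ B₃) (w : AbsoluteValue K ℝ)
    {C : ℝ} (hC : 0 ≤ C) (hBil : ∀ x y, vnorm w (μ x y) ≤ C * (vnorm w x * vnorm w y)) :
    msize w B₃ * (msize w (tl B₁) * msize w (tl B₂))
      ≤ (locC (t + 1) 0 w * C) * (msize w (tl B₃) * (msize w B₁ * msize w B₂)) := by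
  obtain ⟨c₁, hc₁, hs₁⟩ := exists_small_vector w B₁ cfg.li₁
  obtain ⟨c₂, hc₂, hs₂⟩ := exists_small_vector w B₂ cfg.li₂
  obtain ⟨c₃, hc₃, hx₃⟩ := cfg.ML1_coef_mul (x := Matrix.vecMul c₁ B₁) (y := Matrix.vecMul c₂ B₂)
    ⟨c₁, hc₁, rfl⟩ ⟨c₂, hc₂, rfl⟩
  have hl := ML1_laplace_zero w B₃ c₃
  rw [hc₃, mul_one, map_one, one_mul, hx₃] at hl
  exact ML1_real_second (ML1_msize_nonneg w _) (ML1_msize_nonneg w _) (ML1_msize_nonneg w _)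
    (vnorm_nonneg w _) (vnorm_nonneg w _)
    (ML1_locC_nonneg (by linarith [(Nat.cast_nonneg t : (0 : ℝ) ≤ t)]) 0 w) hC hl (hBil _ _) hs₁ hs₂

theorem ML1_real_first {m₃ m₃' m₁ m₁' m₂ m₂' n₃ A A' C L L' : ℝ} (hm₃' : 0 ≤ m₃') (hm₁' : 0 ≤ m₁')
    (hm₂' : 0 ≤ m₂') (hm₁ : 0 < m₁) (hm₂ : 0 < m₂) (hA : 0 ≤ A) (hA' : 0 ≤ A') (hC : 0 ≤ C)
    (hL : 0 ≤ L) (hL' : 0 ≤ L')
    (h1 : 1 ≤ A * (A' * ((C * n₃) * ((L * m₁' / m₁) * (L' * m₂' / m₂))))) (hs : n₃ * m₃' ≤ m₃) :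
    m₃' * (m₁ * m₂) ≤ (A * (A' * (C * (L * L')))) * (m₃ * (m₁' * m₂')) := by
  have h2 : m₃' * (m₁ * m₂) * 1 ≤
      m₃' * (m₁ * m₂) * (A * (A' * ((C * n₃) * ((L * m₁' / m₁) * (L' * m₂' / m₂))))) := by
    gcongr
  have h3 : m₃' * (m₁ * m₂) * (A * (A' * ((C * n₃) * ((L * m₁' / m₁) * (L' * m₂' / m₂))))) =
      (A * (A' * (C * (L * L')))) * ((n₃ * m₃') * (m₁' * m₂')) := by
    field_simp
  rw [mul_one, h3] at h2
  refine h2.trans ?_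
  gcongr

theorem ML1_first {d₁ d₂ d₃ r s t : ℕ}
    {μ : (Fin d₁ → K) →ₗ[K] (Fin d₂ → K) →ₗ[K] (Fin d₃ → K)}
    {B₁ : Matrix (Fin (r + 1)) (Fin d₁) K} {B₂ : Matrix (Fin (s + 1)) (Fin d₂) K}
    {B₃ : Matrix (Fin (t + 1)) (Fin d₃) K} (cfg : MultCfg μ B₁ B₂ B₃) (w : AbsoluteValue K ℝ)
    {C : ℝ} (hC : 0 ≤ C)
    (hUS : ∀ g ∈ Submodule.map₂ μ (rowSpan B₁) (rowSpan B₂),
      ∃ (f : Fin (r + 1) → Fin d₁ → K) (l : Fin (s + 1) → Fin d₂ → K)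
        (c : Fin (r + 1) → Fin (s + 1) → K),
        (∀ a, f a ∈ rowSpan B₁ ∧ vnorm w (f a) ≤ 1) ∧ (∀ b, l b ∈ rowSpan B₂ ∧ vnorm w (l b) ≤ 1) ∧
        g = ∑ a, ∑ b, c a b • μ (f a) (l b) ∧ ∀ a b, w (c a b) ≤ C * vnorm w g) :
    msize w (tl B₃) * (msize w B₁ * msize w B₂)
      ≤ (locC (max 1 ((Finset.univ : Finset (Fin (r + 1))).card : ℝ)) 0 w *
          (locC (max 1 ((Finset.univ : Finset (Fin (s + 1))).card : ℝ)) 0 w *
            (C * (locC (r + 1) 0 w * locC (s + 1) 0 w)))) *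
        (msize w B₃ * (msize w (tl B₁) * msize w (tl B₂))) := by
  obtain ⟨c₃, hc₃, hs₃⟩ := exists_small_vector w B₃ cfg.li₃
  set x₃ := Matrix.vecMul c₃ B₃ with hx₃
  have hmem : x₃ ∈ Submodule.map₂ μ (rowSpan B₁) (rowSpan B₂) := by
    rw [← cfg.span₃]
    exact ML1_vecMul_mem c₃
  obtain ⟨f, l, c, hf, hl, hx, hc⟩ := hUS x₃ hmem
  choose u hu using fun a => ML1_exists_vecMul (hf a).1
  choose v hv using fun b => ML1_exists_vecMul (hl b).1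
  have hsum : ML1_Coef B₃ x₃ (∑ a, ∑ b, c a b * (u a 0 * v b 0)) := by
    rw [hx]
    refine ML1_Coef.sum _ _ _ fun a _ => ML1_Coef.sum _ _ _ fun b _ => ML1_Coef.smul _ ?_
    exact cfg.ML1_coef_mul ⟨u a, rfl, hu a⟩ ⟨v b, rfl, hv b⟩
  have h1 : (1 : K) = ∑ a, ∑ b, c a b * (u a 0 * v b 0) :=
    ML1_Coef.unique cfg.li₃ ⟨c₃, hc₃, rfl⟩ hsum
  have hm₁ : 0 < msize w B₁ := msize_pos w B₁ cfg.li₁
  have hm₂ : 0 < msize w B₂ := msize_pos w B₂ cfg.li₂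
  have hLr : 0 ≤ locC ((r : ℝ) + 1) (0 : Multiset K) w :=
    ML1_locC_nonneg (by linarith [(Nat.cast_nonneg r : (0 : ℝ) ≤ r)]) 0 w
  have hLs : 0 ≤ locC ((s : ℝ) + 1) (0 : Multiset K) w :=
    ML1_locC_nonneg (by linarith [(Nat.cast_nonneg s : (0 : ℝ) ≤ s)]) 0 w
  have hu0 : ∀ a, w (u a 0) ≤ locC (r + 1) 0 w * msize w (tl B₁) / msize w B₁ := by
    intro a
    rw [le_div_iff₀ hm₁]
    refine (ML1_laplace_zero w B₁ (u a)).trans ?_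
    rw [hu a]
    refine mul_le_mul_of_nonneg_left ?_ hLr
    calc vnorm w (f a) * msize w (tl B₁) ≤ 1 * msize w (tl B₁) :=
          mul_le_mul_of_nonneg_right (hf a).2 (ML1_msize_nonneg w _)
      _ = msize w (tl B₁) := one_mul _
  have hv0 : ∀ b, w (v b 0) ≤ locC (s + 1) 0 w * msize w (tl B₂) / msize w B₂ := by
    intro b
    rw [le_div_iff₀ hm₂]
    refine (ML1_laplace_zero w B₂ (v b)).trans ?_
    rw [hv b]
    refine mul_le_mul_of_nonneg_left ?_ hLs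
    calc vnorm w (l b) * msize w (tl B₂) ≤ 1 * msize w (tl B₂) :=
          mul_le_mul_of_nonneg_right (hl b).2 (ML1_msize_nonneg w _)
      _ = msize w (tl B₂) := one_mul _
  set Bd : ℝ := (C * vnorm w x₃) * ((locC (r + 1) 0 w * msize w (tl B₁) / msize w B₁) *
    (locC (s + 1) 0 w * msize w (tl B₂) / msize w B₂)) with hBd
  have hq₁ : 0 ≤ locC (r + 1) 0 w * msize w (tl B₁) / msize w B₁ :=
    div_nonneg (mul_nonneg hLr (ML1_msize_nonneg w _)) hm₁.le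
  have hq₂ : 0 ≤ locC (s + 1) 0 w * msize w (tl B₂) / msize w B₂ :=
    div_nonneg (mul_nonneg hLs (ML1_msize_nonneg w _)) hm₂.le
  have hBd0 : 0 ≤ Bd := mul_nonneg (mul_nonneg hC (vnorm_nonneg w _)) (mul_nonneg hq₁ hq₂)
  have hterm : ∀ a b, w (c a b * (u a 0 * v b 0)) ≤ Bd := by
    intro a b
    rw [map_mul, map_mul]
    exact mul_le_mul (hc a b) (mul_le_mul (hu0 a) (hv0 b) (w.nonneg _) hq₁)
      (mul_nonneg (w.nonneg _) (w.nonneg _)) (mul_nonneg hC (vnorm_nonneg w _))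
  have hAs : 0 ≤ locC (max 1 ((Finset.univ : Finset (Fin (s + 1))).card : ℝ)) (0 : Multiset K) w :=
    ML1_locC_nonneg (le_max_left _ _) 0 w
  have hAr : 0 ≤ locC (max 1 ((Finset.univ : Finset (Fin (r + 1))).card : ℝ)) (0 : Multiset K) w :=
    ML1_locC_nonneg (le_max_left _ _) 0 w
  have hinner : ∀ a, w (∑ b, c a b * (u a 0 * v b 0)) ≤
      locC (max 1 ((Finset.univ : Finset (Fin (s + 1))).card : ℝ)) 0 w * Bd := fun a =>
    abv_sum_le w Finset.univ _ hBd0 fun b _ => hterm a b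
  have houter : w (∑ a, ∑ b, c a b * (u a 0 * v b 0)) ≤
      locC (max 1 ((Finset.univ : Finset (Fin (r + 1))).card : ℝ)) 0 w *
        (locC (max 1 ((Finset.univ : Finset (Fin (s + 1))).card : ℝ)) 0 w * Bd) :=
    abv_sum_le w Finset.univ _ (mul_nonneg hAs hBd0) fun a _ => hinner a
  rw [← h1, map_one] at houter
  exact ML1_real_first (ML1_msize_nonneg w _) (ML1_msize_nonneg w _) (ML1_msize_nonneg w _) hm₁ hm₂
    hAr hAs hC hLr hLs houter hs₃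

/-- **(MULT), local.** -/
theorem MULT_local [IsAlgClosed K] {d₁ d₂ d₃ r s t : ℕ}
    (μ : (Fin d₁ → K) →ₗ[K] (Fin d₂ → K) →ₗ[K] (Fin d₃ → K))
    (𝒵₁ : Set (Submodule K (Fin d₁ → K))) (𝒵₂ : Set (Submodule K (Fin d₂ → K)))
    (h₁ : IsClosedFam (r + 1) d₁ 𝒵₁) (h₂ : IsClosedFam (s + 1) d₂ 𝒵₂)
    (hrank : ∀ W₁ ∈ 𝒵₁, ∀ W₂ ∈ 𝒵₂, Module.finrank K (Submodule.map₂ μ W₁ W₂) = t + 1) :
    ∃ (M : ℝ) (S : Multiset K), 1 ≤ M ∧ ∀ (w : AbsoluteValue K ℝ)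
      (B₁ : Matrix (Fin (r + 1)) (Fin d₁) K) (B₂ : Matrix (Fin (s + 1)) (Fin d₂) K)
      (B₃ : Matrix (Fin (t + 1)) (Fin d₃) K), MultCfg μ B₁ B₂ B₃ → rowSpan B₁ ∈ 𝒵₁ → rowSpan B₂ ∈ 𝒵₂ →
      msize w (tl B₃) * (msize w B₁ * msize w B₂)
          ≤ locC M S w * (msize w B₃ * (msize w (tl B₁) * msize w (tl B₂))) ∧
      msize w B₃ * (msize w (tl B₁) * msize w (tl B₂))
          ≤ locC M S w * (msize w (tl B₃) * (msize w B₁ * msize w B₂)) := by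
  obtain ⟨MU, SU, hMU, hUS⟩ := US μ 𝒵₁ 𝒵₂ h₁ h₂ hrank
  obtain ⟨MB, SB, hMB, hBil⟩ := vnorm_bilin_le μ
  have hr1 : (1 : ℝ) ≤ (r : ℝ) + 1 := by linarith [(Nat.cast_nonneg r : (0 : ℝ) ≤ r)]
  have hs1 : (1 : ℝ) ≤ (s : ℝ) + 1 := by linarith [(Nat.cast_nonneg s : (0 : ℝ) ≤ s)]
  have ht1 : (1 : ℝ) ≤ (t : ℝ) + 1 := by linarith [(Nat.cast_nonneg t : (0 : ℝ) ≤ t)]
  set M₁ : ℝ := max 1 ((Finset.univ : Finset (Fin (r + 1))).card : ℝ) *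
    (max 1 ((Finset.univ : Finset (Fin (s + 1))).card : ℝ) * (MU * (((r : ℝ) + 1) * ((s : ℝ) + 1))))
    with hM₁
  set S₁ : Multiset K := 0 + (0 + (SU + (0 + 0))) with hS₁
  set M₂ : ℝ := ((t : ℝ) + 1) * MB with hM₂
  set S₂ : Multiset K := 0 + SB with hS₂
  have hM₁1 : 1 ≤ M₁ :=
    one_le_mul_of_one_le_of_one_le (le_max_left _ _) (one_le_mul_of_one_le_of_one_le
      (le_max_left _ _) (one_le_mul_of_one_le_of_one_le hMU
        (one_le_mul_of_one_le_of_one_le hr1 hs1)))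
  have hM₂1 : 1 ≤ M₂ := one_le_mul_of_one_le_of_one_le ht1 hMB
  refine ⟨M₁ * M₂, S₁ + S₂, one_le_mul_of_one_le_of_one_le hM₁1 hM₂1,
    fun w B₁ B₂ B₃ cfg hB₁ hB₂ => ⟨?_, ?_⟩⟩
  · have h := ML1_first cfg w (ML1_locC_nonneg hMU SU w) (hUS w _ hB₁ _ hB₂)
    have e : locC (max 1 ((Finset.univ : Finset (Fin (r + 1))).card : ℝ)) 0 w *
          (locC (max 1 ((Finset.univ : Finset (Fin (s + 1))).card : ℝ)) 0 w *
            (locC MU SU w * (locC (r + 1) 0 w * locC (s + 1) 0 w))) = locC M₁ S₁ w := by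
      simp only [ML1_locC_eq, HA.locC_mul, hM₁, hS₁]
    rw [e] at h
    refine h.trans (mul_le_mul_of_nonneg_right ?_ ?_)
    · exact HA.locC_le_add_left w hM₁1 hM₂1 S₁ S₂
    · exact mul_nonneg (ML1_msize_nonneg w _)
        (mul_nonneg (ML1_msize_nonneg w _) (ML1_msize_nonneg w _))
  · have h := ML1_second cfg w (ML1_locC_nonneg hMB SB w) (hBil w)
    have e : locC (t + 1) 0 w * locC MB SB w = locC M₂ S₂ w := by
      simp only [ML1_locC_eq, HA.locC_mul, hM₂, hS₂]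
    rw [e] at h
    refine h.trans (mul_le_mul_of_nonneg_right ?_ ?_)
    · exact HA.locC_le_add_right w hM₁1 hM₂1 S₁ S₂
    · exact mul_nonneg (ML1_msize_nonneg w _)
        (mul_nonneg (ML1_msize_nonneg w _) (ML1_msize_nonneg w _))

/-- **(M1), local.** `μ` without zero divisors. -/
theorem M1_local [IsAlgClosed K] {d₁ d₂ d₃ : ℕ} (r : ℕ)
    (μ : (Fin d₁ → K) →ₗ[K] (Fin d₂ → K) →ₗ[K] (Fin d₃ → K))
    (hμ : ∀ x y, μ x y = 0 → x = 0 ∨ y = 0) :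
    ∃ (M : ℝ) (S : Multiset K), 1 ≤ M ∧ ∀ (w : AbsoluteValue K ℝ) (c : Fin d₁ → K)
      (B : Matrix (Fin r) (Fin d₂) K), c ≠ 0 → LinearIndependent K (fun i => B i) →
      msize w (Matrix.of fun a => μ c (B a)) ≤ locC M S w * (vnorm w c ^ r * msize w B) ∧
      vnorm w c ^ r * msize w B ≤ locC M S w * msize w (Matrix.of fun a => μ c (B a)) :=
  M1_local' r μ hμ

/-- **(HYP), local.** hyperplane `ker φ` of `K^(d+1)` versus the coefficient vector of `φ`: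
`B` a basis of `K^(d+1)` with `φ (B 0) = 1`, `φ (B (i+1)) = 0`. -/
theorem HYP_local {d : ℕ} (w : AbsoluteValue K ℝ) (φ : Fin (d + 1) → K)
    (B : Matrix (Fin (d + 1)) (Fin (d + 1)) K) (hB : B.det ≠ 0)
    (h0 : ∑ j, φ j * B 0 j = 1) (hs : ∀ i : Fin d, ∑ j, φ j * B i.succ j = 0) :
    msize w (tl B) ≤ locC (d + 1) 0 w * (w B.det * vnorm w φ) ∧
    w B.det * vnorm w φ ≤ locC (d + 1) 0 w * msize w (tl B) :=
  HYP_local' w φ B hB h0 hs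

end Fermat.Agent.S17.HN
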